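import Fermat.Agent.S05.PairCore

/-!
# S05 / M4: Lemma F1 (corollary of the pair rule)  (OWNER: helper6)

On `Y² = X (X - e) (X - f)` with `e = ε ^ p`, `v(ε) > 0`, `v(f) = v(2) = 0`, `p` odd: a point
`P = (x, y)` with `p • P = 0` and `v(x) > 0` has `v(x) = 2 j v(ε)` with `0 < 2 j < p`.

* `f1_torsion_w`   : additive version (`IsNzVal`).
* `f1_torsion_val` : multiplicative version for a `Valuation K Γ₀`.
-/

set_option autoImplicit false
set_option linter.unusedSectionVars false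
set_option linter.unusedVariables false

namespace Fermat.Agent.S05

open WeierstrassCurve WeierstrassCurve.Affine

section crel

variable {Γ : Type*} [AddCommGroup Γ] [LinearOrder Γ] [IsOrderedAddMonoid Γ]

/-- `a ≡ ± b` modulo `2 n`. -/
def crel (n a b : Γ) : Prop := ∃ m : ℤ, a = b + m • (n + n) ∨ a = -b + m • (n + n)

theorem crel_refl (n a : Γ) : crel n a a := ⟨0, Or.inl (by simp)⟩

theorem crel_symm {n a b : Γ} (h : crel n a b) : crel n b a := by
  obtain ⟨m, h | h⟩ := h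
  · exact ⟨-m, Or.inl (by rw [h]; module)⟩
  · exact ⟨m, Or.inr (by rw [h]; module)⟩

theorem crel_trans {n a b c : Γ} (h₁ : crel n a b) (h₂ : crel n b c) : crel n a c := by
  obtain ⟨m, h | h⟩ := h₁ <;> obtain ⟨m', h' | h'⟩ := h₂
  · exact ⟨m + m', Or.inl (by rw [h, h']; module)⟩
  · exact ⟨m + m', Or.inr (by rw [h, h']; module)⟩
  · exact ⟨m - m', Or.inr (by rw [h, h']; module)⟩
  · exact ⟨m - m', Or.inl (by rw [h, h']; module)⟩

theorem crel_calpha (n c₁ c₂ : Γ) : crel n (calpha n c₁ c₂) (c₁ + c₂) := by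
  unfold calpha
  split_ifs
  · exact crel_refl _ _
  · exact ⟨1, Or.inr (by module)⟩

theorem crel_abs (n c₁ c₂ : Γ) : crel n |c₁ - c₂| (c₁ - c₂) := by
  rcases abs_choice (c₁ - c₂) with h | h
  · rw [h]; exact crel_refl _ _
  · rw [h]; exact ⟨0, Or.inr (by module)⟩

/-- The induction step. `X = (k+2) c`, `Y = (k+1) c`, `Z = k c`. -/
theorem crel_step {n c c₁ cp cm X Y Z : Γ} (hX : X = Y + c) (hZ : Y = Z + c)
    (h₁ : crel n c₁ Y) (hm : crel n cm Z)
    (hpair : (cp = calpha n c₁ c ∧ cm = |c₁ - c|) ∨ (cm = calpha n c₁ c ∧ cp = |c₁ - c|)) :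
    crel n cp X := by
  have hα : crel n (calpha n c₁ c) (c₁ + c) := crel_calpha n c₁ c
  have hβ : crel n |c₁ - c| (c₁ - c) := crel_abs n c₁ c
  -- either `c₁ + c ~ X` and `c₁ - c ~ Z`, or `c₁ + c ~ Z` and `c₁ - c ~ X`
  have key : (crel n (c₁ + c) X ∧ crel n (c₁ - c) Z) ∨ (crel n (c₁ + c) Z ∧ crel n (c₁ - c) X) := by
    obtain ⟨m, h | h⟩ := h₁
    · left
      exact ⟨⟨m, Or.inl (by rw [h, hX]; module)⟩, ⟨m, Or.inl (by rw [h, hZ]; module)⟩⟩
    · right
      exact ⟨⟨m, Or.inr (by rw [h, hZ]; module)⟩, ⟨m, Or.inr (by rw [h, hX, hZ]; module)⟩⟩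
  rcases hpair with ⟨hcp, hcm⟩ | ⟨hcm, hcp⟩
  · rcases key with ⟨k1, k2⟩ | ⟨k1, k2⟩
    · rw [hcp]; exact crel_trans hα k1
    · -- cp ~ Z, cm ~ X, cm ~ Z
      have hcpZ : crel n cp Z := by rw [hcp]; exact crel_trans hα k1
      have hcmX : crel n cm X := by rw [hcm]; exact crel_trans hβ k2
      exact crel_trans hcpZ (crel_trans (crel_symm hm) hcmX)
  · rcases key with ⟨k1, k2⟩ | ⟨k1, k2⟩
    · -- cp ~ Z (via β), cm ~ X (via α), cm ~ Z
      have hcpZ : crel n cp Z := by rw [hcp]; exact crel_trans hβ k2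
      have hcmX : crel n cm X := by rw [hcm]; exact crel_trans hα k1
      exact crel_trans hcpZ (crel_trans (crel_symm hm) hcmX)
    · rw [hcp]; exact crel_trans hβ k2

end crel

variable {K : Type*} [Field K] [DecidableEq K]
  {Γ : Type*} [AddCommGroup Γ] [LinearOrder Γ] [IsOrderedAddMonoid Γ]
  {W : Affine K} {e f : K} {w : K → Γ}

/-- Multiples of a point of odd order have no 2-torsion. -/
theorem noTwo_of_odd_nsmul {p : ℕ} (hp : Odd p) {Q : W.Point} (hQ : p • Q = 0) : NoTwo Q := by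
  intro h2
  obtain ⟨r, rfl⟩ := hp
  have h1 : (2 * r) • Q = 0 := by
    rw [mul_comm, mul_nsmul', two_nsmul, h2, nsmul_zero]
  rw [add_nsmul, h1, zero_add, one_nsmul] at hQ
  exact hQ

theorem noTwo_nsmul_of_odd {p : ℕ} (hp : Odd p) {P : W.Point} (hP : p • P = 0) (k : ℕ) :
    NoTwo (k • P) := by
  apply noTwo_of_odd_nsmul hp
  rw [← mul_nsmul, mul_comm, mul_nsmul, hP, nsmul_zero]

/-- `c (k P) ≡ ± k c(P)` modulo `2 n`. -/
theorem WefData.crel_nsmul (D : WefData W e f w) {p : ℕ} (hp : Odd p) {P : W.Point}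
    (hP : p • P = 0) (hc : 0 < cpt w (w e) P) (k : ℕ) :
    crel (w e) (cpt w (w e) (k • P)) (k • cpt w (w e) P) := by
  induction k using Nat.twoStepInduction with
  | zero => simp only [zero_nsmul, cpt_zero]; exact crel_refl _ _
  | one => simp only [one_nsmul]; exact crel_refl _ _
  | more k ih0 ih1 =>
    have e1 : (k + 2) • P = (k + 1) • P + P := succ_nsmul P (k + 1)
    have e2 : k • P = (k + 1) • P - P := by rw [succ_nsmul P k]; abel
    have hpair := D.pair_rule (noTwo_nsmul_of_odd hp hP (k + 1)) (noTwo_of_odd_nsmul hp hP)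
      (by rw [← e1]; exact noTwo_nsmul_of_odd hp hP (k + 2))
      (by rw [← e2]; exact noTwo_nsmul_of_odd hp hP k) hc
    rw [← e1, ← e2] at hpair
    refine crel_step (X := (k + 2) • cpt w (w e) P) (Y := (k + 1) • cpt w (w e) P)
      (Z := k • cpt w (w e) P) ?_ ?_ ih1 ih0 hpair
    · exact succ_nsmul _ (k + 1)
    · exact succ_nsmul _ k

/-- **Lemma F1**, additive version. -/
theorem f1_torsion_w (D : WefData W e f w) {ε : K} {p : ℕ} (hp : Odd p) (he : e = ε ^ p)
    (hε0 : ε ≠ 0) {x y : K} (h : W.Nonsingular x y) (htor : p • Point.some x y h = 0)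
    (hx : 0 < w x) :
    ∃ j : ℕ, 0 < j ∧ 2 * j < p ∧ w x = (2 * j) • w ε := by
  have hn := D.we_pos
  have hp0 : p ≠ 0 := by
    rintro rfl
    simp at hp
  have hne : w e = p • w ε := by rw [he, D.val.map_pow hε0]
  have hν : 0 < w ε := by
    by_contra hcon
    have hcon' : w ε ≤ 0 := not_lt.1 hcon
    have : p • w ε ≤ 0 := nsmul_nonpos hcon' p
    rw [← hne] at this
    exact absurd hn (not_lt.2 this)
  obtain ⟨c, hcdef⟩ : ∃ c, c = cpt w (w e) (Point.some x y h) := ⟨_, rfl⟩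
  have hc : 0 < c := by rw [hcdef, cpt_some]; exact (cval_pos_iff hn _).2 hx
  have hcmin : c = min (w x) (w e) := by rw [hcdef, cpt_some]; exact cval_of_pos hx
  have hrel := D.crel_nsmul hp htor (by rw [← hcdef]; exact hc) p
  rw [htor, cpt_zero, ← hcdef] at hrel
  have hnn : w e + w e = (p : ℤ) • ((2 : ℤ) • w ε) := by
    rw [hne, natCast_zsmul]
    module
  -- `p • c = m' • (2 n)`
  obtain ⟨m', hm'⟩ : ∃ m' : ℤ, (p : ℤ) • c = (p : ℤ) • ((2 * m') • w ε) := by
    obtain ⟨m, hm | hm⟩ := hrel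
    · refine ⟨-m, ?_⟩
      rw [hnn] at hm
      have : (p : ℤ) • c = -(m • ((p : ℤ) • ((2 : ℤ) • w ε))) := by
        rw [natCast_zsmul]
        exact eq_neg_of_add_eq_zero_left hm.symm
      rw [this]
      module
    · refine ⟨m, ?_⟩
      rw [hnn] at hm
      have : (p : ℤ) • c = m • ((p : ℤ) • ((2 : ℤ) • w ε)) := by
        rw [natCast_zsmul]
        have := hm.symm
        rw [neg_add_eq_zero] at this
        exact this
      rw [this]
      module
  have hpz : (p : ℤ) ≠ 0 := by exact_mod_cast hp0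
  have hcm : c = (2 * m') • w ε := (zsmul_right_inj hpz).1 hm'
  -- bounds on `m'`
  have hm'pos : 0 < 2 * m' := by
    have : (0 : ℤ) • w ε < (2 * m') • w ε := by rw [zero_zsmul, ← hcm]; exact hc
    exact (zsmul_lt_zsmul_iff_left hν).1 this
  have hm'le : 2 * m' ≤ p := by
    have hcle : c ≤ w e := by rw [hcmin]; exact min_le_right _ _
    have : (2 * m') • w ε ≤ (p : ℤ) • w ε := by
      rw [← hcm, natCast_zsmul, ← hne]; exact hcle
    exact (zsmul_le_zsmul_iff_left hν).1 this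
  have hm'lt : 2 * m' < p := by
    rcases hm'le.lt_or_eq with h1 | h1
    · exact h1
    · exfalso
      obtain ⟨r, hr⟩ := hp
      rw [hr] at h1
      push_cast at h1
      omega
  have hclt : c < w e := by
    have : (2 * m') • w ε < (p : ℤ) • w ε := (zsmul_lt_zsmul_iff_left hν).2 hm'lt
    rwa [← hcm, natCast_zsmul, ← hne] at this
  have hwx : w x = c := by
    rw [hcmin] at hclt ⊢
    rcases le_total (w x) (w e) with h1 | h1
    · rw [min_eq_left h1]
    · rw [min_eq_right h1] at hclt; exact absurd hclt (lt_irrefl _)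
  refine ⟨m'.toNat, ?_, ?_, ?_⟩
  · omega
  · omega
  · rw [hwx, hcm]
    have : (2 * m' : ℤ) = ((2 * m'.toNat : ℕ) : ℤ) := by
      push_cast
      omega
    rw [this, natCast_zsmul]

/-- **Lemma F1**, multiplicative version for a valuation. -/
theorem f1_torsion_val {Γ₀ : Type*} [LinearOrderedCommGroupWithZero Γ₀] (v : Valuation K Γ₀)
    {W : Affine K} {e f ε : K} {p : ℕ}
    (h1 : W.a₁ = 0) (h3 : W.a₃ = 0) (h2 : W.a₂ = -(e + f)) (h4 : W.a₄ = e * f) (h6 : W.a₆ = 0)
    (hp : Odd p) (he : e = ε ^ p) (hε0 : ε ≠ 0) (hε : v ε < 1) (hf : v f = 1) (hv2 : v 2 = 1)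
    {x y : K} (h : W.Nonsingular x y) (htor : p • Point.some x y h = 0) (hx : v x < 1) :
    ∃ j : ℕ, 0 < j ∧ 2 * j < p ∧ v x = v ε ^ (2 * j) := by
  have hp0 : p ≠ 0 := by
    rintro rfl
    simp at hp
  have hf0 : f ≠ 0 := by
    rintro rfl
    simp at hf
  have h20 : (2 : K) ≠ 0 := by
    intro h0
    rw [h0] at hv2
    simp at hv2
  have he0 : e ≠ 0 := by rw [he]; exact pow_ne_zero p hε0
  have hve : v e < 1 := by
    rw [he, map_pow]
    exact pow_lt_one₀ zero_le hε hp0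
  have D : WefData W e f (nzvalOf v) :=
    { a1 := h1, a3 := h3, a2 := h2, a4 := h4, a6 := h6
      val := isNzVal_nzvalOf v
      e_ne := he0, f_ne := hf0, two_ne := h20
      we_pos := (nzvalOf_pos_iff v he0).2 hve
      wf := (nzvalOf_eq_zero_iff v hf0).2 hf
      w2 := (nzvalOf_eq_zero_iff v h20).2 hv2 }
  have hx0 : x ≠ 0 := D.x_ne_zero h.1 (D.y_ne_zero (noTwo_of_odd_nsmul hp htor))
  obtain ⟨j, hj, hjp, hw⟩ :=
    f1_torsion_w D hp he hε0 h htor ((nzvalOf_pos_iff v hx0).2 hx)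
  exact ⟨j, hj, hjp, (nzvalOf_eq_nsmul_iff v hx0 hε0 (2 * j)).1 hw⟩

end Fermat.Agent.S05
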