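import Fermat.Agent.S05.Defs
import Fermat.Agent.S05.F1

/-!
# S05 / M4 — the pair rule and the valuation of `X(P)` for `p`-torsion points reducing to the node

OWNER: helper6.  PROVED (sorry-free).

Additive notation in comments: `v(x) > 0` means `A.valuation x < 1`.
Setting: `W : Y² = X (X - e) (X - f)`, `e = ε ^ p`, `v(ε) > 0`, `f`, `f - e`, `2` units.
`c(P) ∈ [0, n]`, `n = v(e)`: `c = 0` if `P = O` or `v(X) ≤ 0`, `c = min (v(X), n)` otherwise.
PAIR RULE: for `c(P₂) > 0` and any `P₁`: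
`{c(P₁+P₂), c(P₁-P₂)} = {c₁+c₂ or 2n-(c₁+c₂), |c₁-c₂|}`   (`PairCore.lean`, `WefData.pair_rule`).
COROLLARY: `c(kP) = ± k c(P) + 2 n m`  (`F1.lean`, `WefData.crel_nsmul`); hence the statement
below (`F1.lean`, `f1_torsion_val`).
-/

set_option autoImplicit false
set_option linter.unusedVariables false

namespace Fermat.Agent.S05

open WeierstrassCurve WeierstrassCurve.Affine

/-- (M4) a `p`-torsion point `(X, Y)` with `v(X) > 0` has `v(X) = 2 j v(ε)` with `2 j < p`
(in particular `0 < v(X) < v(e)`). -/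
theorem torsion_val {K : Type*} [Field K] [DecidableEq K] (A : ValuationSubring K)
    (W : WeierstrassCurve.Affine K) (e f ε : K) (p : ℕ) (hp : p.Prime) (hp2 : p ≠ 2)
    (h1 : W.a₁ = 0) (h2 : W.a₂ = -(e + f)) (h3 : W.a₃ = 0) (h4 : W.a₄ = e * f) (h6 : W.a₆ = 0)
    (hε0 : ε ≠ 0) (hε : A.valuation ε < 1) (he : e = ε ^ p)
    (hf : A.valuation f = 1) (hfe : A.valuation (f - e) = 1) (h2A : A.valuation (2 : K) = 1)
    {X Y : K} (h : W.Nonsingular X Y) (hX : A.valuation X < 1)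
    (hP : p • (Point.some X Y h) = 0) :
    ∃ j : ℕ, 2 * j < p ∧ A.valuation X = A.valuation ε ^ (2 * j) := by
  obtain ⟨j, -, hj, hv⟩ := f1_torsion_val A.valuation h1 h3 h2 h4 h6 (hp.odd_of_ne_two hp2) he
    hε0 hε hf h2A h hP hX
  exact ⟨j, hj, hv⟩

end Fermat.Agent.S05
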