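import Mathlib

/-!
# S05 / M2: x-only formulas on `Y² = X³ + a₂X² + a₄X + a₆`  (OWNER: helper6)

Setting: a Weierstrass curve `W` over a field `K` with `a₁ = a₃ = 0`.

* `xonly_add_sub`  : for affine `P₁ = (x₁, y₁)`, `P₂ = (x₂, y₂)` with `x₁ ≠ x₂`, both
  `P₁ + P₂ = (x₊, _)` and `P₁ - P₂ = (x₋, _)` are affine, and
  `x₊ (x₁-x₂)² = (y₁-y₂)² - (a₂+x₁+x₂)(x₁-x₂)²`, same for `x₋` with `(y₁+y₂)²`,
  `x₊ x₋ (x₁-x₂)² = (x₁x₂-a₄)² - 4a₆(x₁+x₂+a₂)`,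
  `(x₊+x₋)(x₁-x₂)² = 2[(x₁+x₂)(x₁x₂+a₄) + 2a₂x₁x₂ + 2a₆]`.
* `xonly_double`   : if `y ≠ 0` (and `2 ≠ 0`) then `P + P = (x', _)` with
  `x' · 4y² = x⁴ - 2a₄x² - 8a₆x + a₄² - 4a₂a₆`.
* `xonly_double_of_y_eq_zero` : if `y = 0` then `P + P = 0`.
-/

set_option autoImplicit false
set_option linter.unusedSectionVars false
set_option linter.unusedVariables false

namespace Fermat.Agent.S05

open WeierstrassCurve WeierstrassCurve.Affine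

variable {K : Type*} [Field K] [DecidableEq K] {W : WeierstrassCurve.Affine K}

/-- The curve equation when `a₁ = a₃ = 0`. -/
theorem xonly_equation (h1 : W.a₁ = 0) (h3 : W.a₃ = 0) {x y : K} (h : W.Equation x y) :
    y ^ 2 = x ^ 3 + W.a₂ * x ^ 2 + W.a₄ * x + W.a₆ := by
  have := (W.equation_iff x y).1 h
  rw [h1, h3] at this
  linear_combination this

/-- `negY` when `a₁ = a₃ = 0`. -/
theorem xonly_negY (h1 : W.a₁ = 0) (h3 : W.a₃ = 0) (x y : K) : W.negY x y = -y := by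
  simp [Affine.negY, h1, h3]

/-- Negation of an affine point when `a₁ = a₃ = 0`. -/
theorem xonly_neg_some (h1 : W.a₁ = 0) (h3 : W.a₃ = 0) {x y : K} (h : W.Nonsingular x y) :
    ∃ h' : W.Nonsingular x (-y), -(Point.some x y h) = Point.some x (-y) h' := by
  have hn : W.Nonsingular x (W.negY x y) := (nonsingular_neg x y).mpr h
  have e : W.negY x y = -y := xonly_negY h1 h3 x y
  refine ⟨e ▸ hn, ?_⟩
  rw [Point.neg_some]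
  congr 1

/-- The `x`-coordinate of a sum of two affine points with distinct `x`-coordinates. -/
theorem xonly_add (h1 : W.a₁ = 0) (h3 : W.a₃ = 0) {x₁ y₁ x₂ y₂ : K}
    (h₁ : W.Nonsingular x₁ y₁) (h₂ : W.Nonsingular x₂ y₂) (hx : x₁ ≠ x₂) :
    ∃ (xp yp : K) (hp : W.Nonsingular xp yp),
      Point.some x₁ y₁ h₁ + Point.some x₂ y₂ h₂ = Point.some xp yp hp ∧
      xp * (x₁ - x₂) ^ 2 = (y₁ - y₂) ^ 2 - (W.a₂ + x₁ + x₂) * (x₁ - x₂) ^ 2 := by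
  refine ⟨_, _, _, Point.add_of_X_ne hx, ?_⟩
  have hd : x₁ - x₂ ≠ 0 := sub_ne_zero.mpr hx
  rw [slope_of_X_ne hx, Affine.addX, h1]
  field_simp
  ring

/-- **x-only addition/subtraction formulas.** -/
theorem xonly_add_sub (h1 : W.a₁ = 0) (h3 : W.a₃ = 0) {x₁ y₁ x₂ y₂ : K}
    (h₁ : W.Nonsingular x₁ y₁) (h₂ : W.Nonsingular x₂ y₂) (hx : x₁ ≠ x₂) :
    ∃ (xp yp xm ym : K) (hp : W.Nonsingular xp yp) (hm : W.Nonsingular xm ym),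
      Point.some x₁ y₁ h₁ + Point.some x₂ y₂ h₂ = Point.some xp yp hp ∧
      Point.some x₁ y₁ h₁ - Point.some x₂ y₂ h₂ = Point.some xm ym hm ∧
      xp * (x₁ - x₂) ^ 2 = (y₁ - y₂) ^ 2 - (W.a₂ + x₁ + x₂) * (x₁ - x₂) ^ 2 ∧
      xm * (x₁ - x₂) ^ 2 = (y₁ + y₂) ^ 2 - (W.a₂ + x₁ + x₂) * (x₁ - x₂) ^ 2 ∧
      xp * xm * (x₁ - x₂) ^ 2 = (x₁ * x₂ - W.a₄) ^ 2 - 4 * W.a₆ * (x₁ + x₂ + W.a₂) ∧
      (xp + xm) * (x₁ - x₂) ^ 2 =
        2 * ((x₁ + x₂) * (x₁ * x₂ + W.a₄) + 2 * W.a₂ * x₁ * x₂ + 2 * W.a₆) := by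
  obtain ⟨xp, yp, hp, hadd, hxp⟩ := xonly_add h1 h3 h₁ h₂ hx
  obtain ⟨h₂', hneg⟩ := xonly_neg_some h1 h3 h₂
  obtain ⟨xm, ym, hm, hsub, hxm⟩ := xonly_add h1 h3 h₁ h₂' hx
  have hd : x₁ - x₂ ≠ 0 := sub_ne_zero.mpr hx
  have hd2 : (x₁ - x₂) ^ 2 ≠ 0 := pow_ne_zero 2 hd
  have e₁ := xonly_equation h1 h3 h₁.1
  have e₂ := xonly_equation h1 h3 h₂.1
  have hxm' : xm * (x₁ - x₂) ^ 2 = (y₁ + y₂) ^ 2 - (W.a₂ + x₁ + x₂) * (x₁ - x₂) ^ 2 := by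
    rw [hxm]; ring
  refine ⟨xp, yp, xm, ym, hp, hm, hadd, ?_, hxp, hxm', ?_, ?_⟩
  · rw [sub_eq_add_neg, hneg, hsub]
  · -- product formula
    apply mul_right_cancel₀ hd2
    have key : xp * xm * (x₁ - x₂) ^ 2 * (x₁ - x₂) ^ 2 =
        (xp * (x₁ - x₂) ^ 2) * (xm * (x₁ - x₂) ^ 2) := by ring
    rw [key, hxp, hxm']
    linear_combination
      (y₁ ^ 2 - y₂ ^ 2 + (x₁ ^ 3 + W.a₂ * x₁ ^ 2 + W.a₄ * x₁ + W.a₆)
          - (x₂ ^ 3 + W.a₂ * x₂ ^ 2 + W.a₄ * x₂ + W.a₆)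
          - 2 * (W.a₂ + x₁ + x₂) * (x₁ - x₂) ^ 2) * e₁
      + (-(y₁ ^ 2 - y₂ ^ 2 + (x₁ ^ 3 + W.a₂ * x₁ ^ 2 + W.a₄ * x₁ + W.a₆)
          - (x₂ ^ 3 + W.a₂ * x₂ ^ 2 + W.a₄ * x₂ + W.a₆))
          - 2 * (W.a₂ + x₁ + x₂) * (x₁ - x₂) ^ 2) * e₂
  · -- sum formula
    rw [add_mul, hxp, hxm']
    linear_combination 2 * e₁ + 2 * e₂

/-- **Duplication formula** (`y ≠ 0`). -/
theorem xonly_double (h1 : W.a₁ = 0) (h3 : W.a₃ = 0) (h2 : (2 : K) ≠ 0) {x y : K}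
    (h : W.Nonsingular x y) (hy : y ≠ 0) :
    ∃ (x' y' : K) (h' : W.Nonsingular x' y'),
      Point.some x y h + Point.some x y h = Point.some x' y' h' ∧
      x' * (4 * y ^ 2) =
        x ^ 4 - 2 * W.a₄ * x ^ 2 - 8 * W.a₆ * x + W.a₄ ^ 2 - 4 * W.a₂ * W.a₆ := by
  have hne : y ≠ W.negY x y := by
    rw [xonly_negY h1 h3]
    intro hyy
    have : (2 : K) * y = 0 := by linear_combination hyy
    rcases mul_eq_zero.1 this with h0 | h0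
    · exact h2 h0
    · exact hy h0
  refine ⟨_, _, _, Point.add_self_of_Y_ne hne, ?_⟩
  have e := xonly_equation h1 h3 h.1
  have h2y : (2 : K) * y ≠ 0 := mul_ne_zero h2 hy
  have hsl : W.slope x x y y * (2 * y) = 3 * x ^ 2 + 2 * W.a₂ * x + W.a₄ := by
    rw [slope_of_Y_ne rfl hne, xonly_negY h1 h3, h1]
    have : y - -y = 2 * y := by ring
    rw [this]
    field_simp
    ring
  rw [Affine.addX, h1]
  linear_combination (W.slope x x y y * (2 * y) + (3 * x ^ 2 + 2 * W.a₂ * x + W.a₄)) * hsl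
    - 4 * (W.a₂ + 2 * x) * e

/-- Duplication when `y = 0`. -/
theorem xonly_double_of_y_eq_zero (h1 : W.a₁ = 0) (h3 : W.a₃ = 0) {x y : K}
    (h : W.Nonsingular x y) (hy : y = 0) :
    Point.some x y h + Point.some x y h = 0 := by
  apply Point.add_self_of_Y_eq
  rw [xonly_negY h1 h3, hy, neg_zero]

end Fermat.Agent.S05
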