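import Fermat.Agent.S05.LemmaK
import Fermat.Agent.S05.PairRule
import Fermat.Agent.S05.XOnly
import Fermat.Prelude.Def_FLTPrelim_Ramification

/-!
# S05 / M5: the local theorem  (OWNER: helper3)

Let `W : Y² = X (X - e) (X - f)` be defined over a field `F`, `K / F` a field extension with a
valuation `v`, and `σ : K ≃ₐ[F] K` an automorphism "in the inertia group" of `v`
(`v x ≤ 1 → v (σ x - x) < 1`).  Assume `v 2 = 1`, `v f = v (f - e) = 1`, and *Lemma K*
(`1 < v x → p • (x, y) ≠ 0`).  Then `σ` fixes every `p`-torsion point of `W(K)`, provided that in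
the multiplicative case `v e < 1` the valuation of the `x`-coordinate of a `p`-torsion point with
`v x < 1` is the valuation of an element of `F` and is `> v e` (this is what Lemma F1 gives).
-/

set_option autoImplicit false
set_option linter.unusedSectionVars false
set_option linter.unusedVariables false

namespace Fermat.Agent.S05

open WeierstrassCurve WeierstrassCurve.Affine WeierstrassCurve.Affine.Point

section ValuationAux

variable {K : Type*} [Field K] {Γ₀ : Type*} [LinearOrderedCommGroupWithZero Γ₀]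
  (v : Valuation K Γ₀)

lemma local_sq_lt_sq {a b : Γ₀} (h : a < b) : a ^ 2 < b ^ 2 :=
  pow_lt_pow_left₀ h zero_le two_ne_zero

lemma local_sq_le_sq {a b : Γ₀} (h : a ≤ b) : a ^ 2 ≤ b ^ 2 :=
  pow_le_pow_left₀ zero_le h 2

lemma local_lt_of_sq_lt_sq {a b : Γ₀} (h : a ^ 2 < b ^ 2) : a < b := by
  by_contra hab
  exact absurd (local_sq_le_sq (not_lt.1 hab)) (not_le.2 h)

lemma local_le_of_sq_le_sq {a b : Γ₀} (h : a ^ 2 ≤ b ^ 2) : a ≤ b := by
  by_contra hab
  exact absurd (local_sq_lt_sq (not_le.1 hab)) (not_lt.2 h)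

lemma local_eq_of_sq_eq_sq {a b : Γ₀} (h : a ^ 2 = b ^ 2) : a = b :=
  le_antisymm (local_le_of_sq_le_sq h.le) (local_le_of_sq_le_sq h.ge)

lemma local_val_four (hv2 : v 2 = 1) : v 4 = 1 := by
  have : (4 : K) = 2 * 2 := by norm_num
  rw [this, map_mul, hv2, mul_one]

lemma local_val_two_mul (hv2 : v 2 = 1) (x : K) : v (2 * x) = v x := by
  rw [map_mul, hv2, one_mul]

end ValuationAux


section Key

variable {K : Type*} [Field K] [DecidableEq K] {Γ₀ : Type*} [LinearOrderedCommGroupWithZero Γ₀]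
  (v : Valuation K Γ₀) {W : Affine K}

/-- **Key lemma**: two `n`-torsion points which are close to each other (relative to `v y`)
are equal, if Lemma K holds for `n`. -/
lemma local_key (h1 : W.a₁ = 0) (h3 : W.a₃ = 0) (ha2 : v W.a₂ ≤ 1) (hv2 : v 2 = 1) {n : ℕ}
    (hK : ∀ (x y : K) (h : W.Nonsingular x y), 1 < v x → n • Point.some x y h ≠ 0)
    {x y x' y' : K} (h : W.Nonsingular x y) (h' : W.Nonsingular x' y')
    (htor : n • Point.some x y h = 0) (htor' : n • Point.some x' y' h' = 0)
    (hx : v x ≤ 1) (hx' : v x' ≤ 1) (hy0 : y ≠ 0)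
    (hxx : v (x' - x) < v y) (hyy : v (y' - y) < v y) : x' = x ∧ y' = y := by
  have hvy0 : v y ≠ 0 := (Valuation.ne_zero_iff v).2 hy0
  have hxeq : x' = x := by
    by_contra hne
    obtain ⟨xp, yp, xm, ym, hp, hm, -, hsub, -, hxm, -, -⟩ := xonly_add_sub h1 h3 h' h hne
    have htorD : n • Point.some xm ym hm = 0 := by
      rw [← hsub, smul_sub, htor, htor', sub_zero]
    have hd0 : v (x' - x) ≠ 0 := (Valuation.ne_zero_iff v).2 (sub_ne_zero.2 hne)
    have hA : v (y' + y) = v y := by
      have e : y' + y = (y' - y) + 2 * y := by ring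
      rw [e, Valuation.map_add_eq_of_lt_right]
      · exact local_val_two_mul v hv2 y
      · rw [local_val_two_mul v hv2 y]; exact hyy
    have hB : v ((W.a₂ + x' + x) * (x' - x) ^ 2) < v y ^ 2 := by
      have h1' : v (W.a₂ + x' + x) ≤ 1 :=
        Valuation.map_add_le v (Valuation.map_add_le v ha2 hx') hx
      calc v ((W.a₂ + x' + x) * (x' - x) ^ 2)
          = v (W.a₂ + x' + x) * v (x' - x) ^ 2 := by rw [map_mul, map_pow]
        _ ≤ 1 * v (x' - x) ^ 2 := mul_le_mul_left h1' _
        _ = v (x' - x) ^ 2 := one_mul _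
        _ < v y ^ 2 := local_sq_lt_sq hxx
    have hAB : v ((y' + y) ^ 2 - (W.a₂ + x' + x) * (x' - x) ^ 2) = v y ^ 2 := by
      rw [Valuation.map_sub_eq_of_lt_left, map_pow, hA]
      rw [map_pow, hA]; exact hB
    have hprod : v xm * v (x' - x) ^ 2 = v y ^ 2 := by
      rw [← hAB, ← hxm, map_mul, map_pow]
    have hbig : 1 < v xm := by
      by_contra hle
      have hle' : v xm ≤ 1 := not_lt.1 hle
      have : v y ^ 2 < v y ^ 2 :=
        calc v y ^ 2 = v xm * v (x' - x) ^ 2 := hprod.symm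
          _ ≤ 1 * v (x' - x) ^ 2 := mul_le_mul_left hle' _
          _ = v (x' - x) ^ 2 := one_mul _
          _ < v y ^ 2 := local_sq_lt_sq hxx
      exact lt_irrefl _ this
    exact hK xm ym hm hbig htorD
  refine ⟨hxeq, ?_⟩
  have e1 := xonly_equation h1 h3 h.1
  have e2 := xonly_equation h1 h3 h'.1
  rw [hxeq] at e2
  have hmul : (y' - y) * (y' + y) = 0 := by linear_combination e2 - e1
  rcases mul_eq_zero.1 hmul with h0 | h0
  · exact sub_eq_zero.1 h0
  · exfalso
    have e : y' - y = -(2 * y) := by linear_combination h0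
    rw [e, Valuation.map_neg, local_val_two_mul v hv2 y] at hyy
    exact lt_irrefl _ hyy

/-- **Reduction lemma**: a nonzero `n`-torsion point (`n` odd) of `Y² = X (X - e) (X - f)` has
integral coordinates, `y ≠ 0`, and either `y` is a unit or we are in the multiplicative case
`v e < 1` with `v x < 1`. -/
lemma local_reduce {e f : K} (h1 : W.a₁ = 0) (h3 : W.a₃ = 0) (h2 : W.a₂ = -(e + f))
    (h4 : W.a₄ = e * f) (h6 : W.a₆ = 0) (hv2 : v 2 = 1) (hf : v f = 1) (hfe : v (f - e) = 1)
    (he : v e ≤ 1) {n : ℕ} (hn : Odd n)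
    (hK : ∀ (x y : K) (h : W.Nonsingular x y), 1 < v x → n • Point.some x y h ≠ 0)
    {x y : K} (h : W.Nonsingular x y) (htor : n • Point.some x y h = 0) :
    v x ≤ 1 ∧ v y ≤ 1 ∧ y ≠ 0 ∧ (v y = 1 ∨ (v e < 1 ∧ v x < 1)) := by
  have h20 : (2 : K) ≠ 0 := by
    intro h0
    rw [h0, _root_.map_zero] at hv2
    exact zero_ne_one hv2
  have hx : v x ≤ 1 := by
    by_contra hlt
    exact hK x y h (not_le.1 hlt) htor
  have ha2 : v W.a₂ ≤ 1 := by
    rw [h2, Valuation.map_neg]
    exact Valuation.map_add_le v he hf.le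
  have ha4 : v W.a₄ ≤ 1 := by
    rw [h4, map_mul, hf, mul_one]; exact he
  have heq := xonly_equation h1 h3 h.1
  rw [h6, add_zero] at heq
  have hy : v y ≤ 1 := by
    apply local_le_of_sq_le_sq
    rw [one_pow, ← map_pow, heq]
    refine Valuation.map_add_le v (Valuation.map_add_le v ?_ ?_) ?_
    · rw [map_pow]; exact pow_le_one₀ zero_le hx
    · rw [map_mul, map_pow]
      exact mul_le_one' ha2 (pow_le_one₀ zero_le hx)
    · rw [map_mul]
      exact mul_le_one' ha4 hx
  have hy0 : y ≠ 0 := by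
    intro hy0
    have hdbl := xonly_double_of_y_eq_zero h1 h3 h hy0
    obtain ⟨k, hk⟩ := hn
    have : n • Point.some x y h = Point.some x y h := by
      rw [hk, add_smul, one_smul, mul_comm, mul_smul, two_smul, hdbl, smul_zero, zero_add]
    rw [this] at htor
    exact Point.some_ne_zero _ htor
  refine ⟨hx, hy, hy0, ?_⟩
  by_cases hy1 : v y = 1
  · exact Or.inl hy1
  right
  have hylt : v y < 1 := lt_of_le_of_ne hy hy1
  -- duplication
  obtain ⟨x', y', h', hdbl, hx'⟩ := xonly_double h1 h3 h20 h hy0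
  have htor2 : n • Point.some x' y' h' = 0 := by
    rw [← hdbl, smul_add, htor, add_zero]
  have hx'1 : v x' ≤ 1 := by
    by_contra hlt
    exact hK x' y' h' (not_le.1 hlt) htor2
  have hsq : x' * (4 * y ^ 2) = (x ^ 2 - e * f) ^ 2 := by
    rw [hx', h4, h6]; ring
  have hval : v (x ^ 2 - e * f) < 1 := by
    apply local_lt_of_sq_lt_sq
    rw [one_pow, ← map_pow, ← hsq, map_mul, map_mul, local_val_four v hv2, one_mul, map_pow]
    calc v x' * v y ^ 2 ≤ 1 * v y ^ 2 := mul_le_mul_left hx'1 _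
      _ = v y ^ 2 := one_mul _
      _ < 1 := by
        have := local_sq_lt_sq hylt
        rwa [one_pow] at this
  -- the three factors
  have hfac : y ^ 2 = x * (x - e) * (x - f) := by
    rw [heq, h2, h4]; ring
  have hxf : v (x - f) = 1 := by
    by_contra hne
    have hle : v (x - f) ≤ 1 := Valuation.map_sub_le v hx hf.le
    have hlt : v (x - f) < 1 := lt_of_le_of_ne hle hne
    have e1 : f * (f - e) = (x ^ 2 - e * f) - (x - f) * (x + f) := by ring
    have : v (f * (f - e)) < 1 := by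
      rw [e1]
      apply Valuation.map_sub_lt v hval
      rw [map_mul]
      calc v (x - f) * v (x + f) ≤ v (x - f) * 1 :=
            mul_le_mul_right (Valuation.map_add_le v hx hf.le) _
        _ = v (x - f) := mul_one _
        _ < 1 := hlt
    rw [map_mul, hf, hfe, mul_one] at this
    exact lt_irrefl _ this
  have hprod : v x * v (x - e) < 1 := by
    have : v (y ^ 2) < 1 := by
      rw [map_pow]
      have := local_sq_lt_sq hylt
      rwa [one_pow] at this
    rw [hfac, map_mul, map_mul, hxf, mul_one] at this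
    exact this
  have hxe_le : v (x - e) ≤ 1 := Valuation.map_sub_le v hx he
  by_cases hx1 : v x = 1
  · exfalso
    rw [hx1, one_mul] at hprod
    have e1 : e * (e - f) = (x ^ 2 - e * f) - (x - e) * (x + e) := by ring
    have h1' : v (e * (e - f)) < 1 := by
      rw [e1]
      apply Valuation.map_sub_lt v hval
      rw [map_mul]
      calc v (x - e) * v (x + e) ≤ v (x - e) * 1 :=
            mul_le_mul_right (Valuation.map_add_le v hx he) _
        _ = v (x - e) := mul_one _
        _ < 1 := hprod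
    rw [map_mul, Valuation.map_sub_swap, hfe, mul_one] at h1'
    have : v x < 1 := by
      have e2 : x = (x - e) + e := by ring
      rw [e2]
      exact Valuation.map_add_lt v hprod h1'
    rw [hx1] at this
    exact lt_irrefl _ this
  · have hxlt : v x < 1 := lt_of_le_of_ne hx hx1
    refine ⟨?_, hxlt⟩
    have e1 : e * f = x ^ 2 - (x ^ 2 - e * f) := by ring
    have : v (e * f) < 1 := by
      rw [e1]
      apply Valuation.map_sub_lt v _ hval
      rw [map_pow]
      have := local_sq_lt_sq hxlt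
      rwa [one_pow] at this
    rwa [map_mul, hf, mul_one] at this

end Key


section Main

variable {F K : Type*} [Field F] [Field K] [DecidableEq K] [Algebra F K]
  {Γ₀ : Type*} [LinearOrderedCommGroupWithZero Γ₀] (v : Valuation K Γ₀)

/-- The action of `σ` on an affine point. -/
lemma local_smul_some (σ : K ≃ₐ[F] K) (W : Affine F) {x y : K} (h : (W⁄K).Nonsingular x y) :
    ∃ h' : (W⁄K).Nonsingular (σ x) (σ y), σ • Point.some x y h = Point.some (σ x) (σ y) h' :=
  ⟨(W.baseChange_nonsingular σ.toAlgHom.injective x y).mpr h, rfl⟩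

lemma local_smul_nsmul (σ : K ≃ₐ[F] K) (W : Affine F) (n : ℕ) (P : (W⁄K).Point) :
    σ • (n • P) = n • (σ • P) :=
  map_nsmul (Point.map (W' := W) σ.toAlgHom) n P

/-- **Local theorem (core form)**. -/
theorem local_unramified_core (σ : K ≃ₐ[F] K) (hσ : ∀ x : K, v x ≤ 1 → v (σ x - x) < 1)
    (W : Affine F) (e f : F) (h1 : W.a₁ = 0) (h3 : W.a₃ = 0) (h2 : W.a₂ = -(e + f))
    (h4 : W.a₄ = e * f) (h6 : W.a₆ = 0) {p : ℕ} (hp : Odd p) (hv2 : v 2 = 1)
    (hf : v (algebraMap F K f) = 1) (hfe : v (algebraMap F K (f - e)) = 1)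
    (he : v (algebraMap F K e) ≤ 1)
    (hK : ∀ (x y : K) (h : (W⁄K).Nonsingular x y), 1 < v x → p • Point.some x y h ≠ 0)
    (hF1 : ∀ (x y : K) (h : (W⁄K).Nonsingular x y), p • Point.some x y h = 0 → v x < 1 →
      v (algebraMap F K e) < 1 →
        v (algebraMap F K e) < v x ∧ ∃ c : F, v (algebraMap F K c) = v x)
    (P : (W⁄K).Point) (hP : p • P = 0) : σ • P = P := by
  rcases P with _ | ⟨x, y, h⟩
  · rfl
  obtain ⟨h', hsmul⟩ := local_smul_some σ W h
  have htor' : p • Point.some (σ x) (σ y) h' = 0 := by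
    rw [← hsmul, ← local_smul_nsmul, hP]; rfl
  -- coefficients of the base change
  have k1 : (W⁄K).a₁ = 0 := by simp [h1]
  have k3 : (W⁄K).a₃ = 0 := by simp [h3]
  have k2 : (W⁄K).a₂ = -(algebraMap F K e + algebraMap F K f) := by simp [h2]
  have k4 : (W⁄K).a₄ = algebraMap F K e * algebraMap F K f := by simp [h4]
  have k6 : (W⁄K).a₆ = 0 := by simp [h6]
  have hfe' : v (algebraMap F K f - algebraMap F K e) = 1 := by rwa [← map_sub]
  obtain ⟨hx, hy, hy0, hcase⟩ :=
    local_reduce v k1 k3 k2 k4 k6 hv2 hf hfe' he hp hK h hP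
  have ka2 : v (W⁄K).a₂ ≤ 1 := by
    rw [k2, Valuation.map_neg]
    exact Valuation.map_add_le v he hf.le
  have hσx : v (σ x) ≤ 1 := by
    have e1 : σ x = (σ x - x) + x := by ring
    rw [e1]
    exact Valuation.map_add_le v (hσ x hx).le hx
  suffices hclose : v (σ x - x) < v y ∧ v (σ y - y) < v y by
    obtain ⟨hxx, hyy⟩ :=
      local_key v k1 k3 ka2 hv2 hK h h' hP htor' hx hσx hy0 hclose.1 hclose.2
    rw [hsmul, Point.some.injEq]
    exact ⟨hxx, hyy⟩
  rcases hcase with hy1 | ⟨helt, hxlt⟩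
  · rw [hy1]
    exact ⟨hσ x hx, hσ y hy⟩
  · obtain ⟨hex, c, hc⟩ := hF1 x y h hP hxlt helt
    have hvx0 : v x ≠ 0 := ne_of_gt (lt_of_le_of_lt zero_le hex)
    have hx0 : x ≠ 0 := (Valuation.ne_zero_iff v).1 hvx0
    have hc0 : algebraMap F K c ≠ 0 := (Valuation.ne_zero_iff v).1 (hc ▸ hvx0)
    have hσc : σ (algebraMap F K c) = algebraMap F K c := σ.commutes c
    -- `x = c * u` with `u` a unit
    have hu : v (x / algebraMap F K c) = 1 := by
      rw [map_div₀, hc, div_self hvx0]
    have hxx : v (σ x - x) < v x := by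
      have e1 : σ x - x = algebraMap F K c * (σ (x / algebraMap F K c) - x / algebraMap F K c) := by
        rw [map_div₀, hσc]
        field_simp
      rw [e1, map_mul, hc]
      calc v x * v (σ (x / algebraMap F K c) - x / algebraMap F K c) < v x * 1 :=
            mul_lt_mul_of_pos_left (hσ _ hu.le) (zero_lt_iff.2 hvx0)
        _ = v x := mul_one _
    -- `v y = v x`
    have heq := xonly_equation k1 k3 h.1
    have hfac : y ^ 2 = x * (x - algebraMap F K e) * (x - algebraMap F K f) := by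
      rw [heq, k2, k4, k6]; ring
    have hxe : v (x - algebraMap F K e) = v x := Valuation.map_sub_eq_of_lt_left v hex
    have hxf : v (x - algebraMap F K f) = 1 := by
      rw [Valuation.map_sub_eq_of_lt_right v (by rw [hf]; exact hxlt), hf]
    have hvy : v y = v x := by
      apply local_eq_of_sq_eq_sq
      rw [← map_pow, hfac, map_mul, map_mul, hxe, hxf, mul_one, pow_two]
    -- `y = w * x` with `w` a unit
    have hw : v (y / x) = 1 := by
      rw [map_div₀, hvy, div_self hvx0]
    have hσw : v (σ (y / x)) ≤ 1 := by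
      have e1 : σ (y / x) = (σ (y / x) - y / x) + y / x := by ring
      rw [e1]
      exact Valuation.map_add_le v (hσ _ hw.le).le hw.le
    have hyy : v (σ y - y) < v x := by
      have e1 : σ y - y = σ (y / x) * (σ x - x) + (σ (y / x) - y / x) * x := by
        have e2 : σ y = σ (y / x) * σ x := by
          rw [← map_mul, div_mul_cancel₀ y hx0]
        rw [e2]
        field_simp
        ring
      rw [e1]
      apply Valuation.map_add_lt v
      · rw [map_mul]
        calc v (σ (y / x)) * v (σ x - x) ≤ 1 * v (σ x - x) := mul_le_mul_left hσw _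
          _ = v (σ x - x) := one_mul _
          _ < v x := hxx
      · rw [map_mul]
        calc v (σ (y / x) - y / x) * v x < 1 * v x :=
              mul_lt_mul_of_pos_right (hσ _ hw.le) (zero_lt_iff.2 hvx0)
          _ = v x := one_mul _
    rw [hvy]
    exact ⟨hxx, hyy⟩

/-- **Local theorem** (M5): with Lemma K (`hK`) and, in the multiplicative case, Lemma F1 as
hypotheses, an inertia element `σ` fixes every `p`-torsion point of `Y² = X (X - e) (X - f)`. -/
theorem local_unramified_of_hyps (σ : K ≃ₐ[F] K) (hσ : ∀ x : K, v x ≤ 1 → v (σ x - x) < 1)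
    (W : Affine F) (e f : F) (h1 : W.a₁ = 0) (h3 : W.a₃ = 0) (h2 : W.a₂ = -(e + f))
    (h4 : W.a₄ = e * f) (h6 : W.a₆ = 0) {p : ℕ} (hp : p.Prime) (hp2 : p ≠ 2) (hv2 : v 2 = 1)
    (hf : v (algebraMap F K f) = 1) (hfe : v (algebraMap F K (f - e)) = 1)
    (hcase : v (algebraMap F K e) = 1 ∨
      ∃ ε : F, e = ε ^ p ∧ ε ≠ 0 ∧ v (algebraMap F K ε) < 1 ∧
        ∀ (x y : K) (h : (W⁄K).Nonsingular x y), p • Point.some x y h = 0 → v x < 1 →
          ∃ j : ℕ, 0 < j ∧ 2 * j < p ∧ v x = v (algebraMap F K ε) ^ (2 * j))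
    (hK : ∀ (x y : K) (h : (W⁄K).Nonsingular x y), 1 < v x → p • Point.some x y h ≠ 0)
    (P : (W⁄K).Point) (hP : p • P = 0) : σ • P = P := by
  have he : v (algebraMap F K e) ≤ 1 := by
    rcases hcase with h | ⟨ε, rfl, -, hε, -⟩
    · exact h.le
    · rw [map_pow, map_pow]
      exact pow_le_one₀ zero_le hε.le
  refine local_unramified_core v σ hσ W e f h1 h3 h2 h4 h6 (hp.odd_of_ne_two hp2) hv2 hf hfe he
    hK ?_ P hP
  intro x y h htor hxlt helt
  rcases hcase with h' | ⟨ε, rfl, hε0, hε, hF1⟩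
  · rw [h'] at helt
    exact absurd helt (lt_irrefl _)
  · obtain ⟨j, hj0, hjp, hj⟩ := hF1 x y h htor hxlt
    have hε0' : algebraMap F K ε ≠ 0 := by
      rwa [Ne, map_eq_zero_iff _ (algebraMap F K).injective]
    have hpos : 0 < v (algebraMap F K ε) := zero_lt_iff.2 ((Valuation.ne_zero_iff v).2 hε0')
    refine ⟨?_, ε ^ (2 * j), ?_⟩
    · rw [map_pow, map_pow, hj]
      exact pow_lt_pow_right_of_lt_one₀ hpos hε hjp
    · rw [map_pow, map_pow, hj]

/-- The same statement for elements of `Submodule.torsionBy ℤ _ p`. -/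
theorem local_unramified_torsionBy_of_hyps (σ : K ≃ₐ[F] K) (hσ : ∀ x : K, v x ≤ 1 → v (σ x - x) < 1)
    (W : Affine F) (e f : F) (h1 : W.a₁ = 0) (h3 : W.a₃ = 0) (h2 : W.a₂ = -(e + f))
    (h4 : W.a₄ = e * f) (h6 : W.a₆ = 0) {p : ℕ} (hp : p.Prime) (hp2 : p ≠ 2) (hv2 : v 2 = 1)
    (hf : v (algebraMap F K f) = 1) (hfe : v (algebraMap F K (f - e)) = 1)
    (hcase : v (algebraMap F K e) = 1 ∨
      ∃ ε : F, e = ε ^ p ∧ ε ≠ 0 ∧ v (algebraMap F K ε) < 1 ∧
        ∀ (x y : K) (h : (W⁄K).Nonsingular x y), p • Point.some x y h = 0 → v x < 1 →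
          ∃ j : ℕ, 0 < j ∧ 2 * j < p ∧ v x = v (algebraMap F K ε) ^ (2 * j))
    (hK : ∀ (x y : K) (h : (W⁄K).Nonsingular x y), 1 < v x → p • Point.some x y h ≠ 0)
    (x : Submodule.torsionBy ℤ (W⁄K).Point p) : σ • x = x := by
  have hx : p • (x : (W⁄K).Point) = 0 := by
    have := x.2
    rw [Submodule.mem_torsionBy_iff] at this
    rwa [natCast_zsmul] at this
  exact Subtype.ext
    (local_unramified_of_hyps v σ hσ W e f h1 h3 h2 h4 h6 hp hp2 hv2 hf hfe hcase hK x hx)

end Main

section Inertia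

variable {K : Type*} [Field K] {F : Type*} [Field F] [Algebra F K]

/-- An element of the inertia group moves every element of `A` by an element of the maximal
ideal. -/
lemma local_inertia_val (A : ValuationSubring K) (σ : K ≃ₐ[F] K)
    (hσ : σ ∈ A.inertiaSubgroupIn F) (x : K) (hx : A.valuation x ≤ 1) :
    A.valuation (σ x - x) < 1 := by
  obtain ⟨τ, hτ, rfl⟩ := Subgroup.mem_map.1 hσ
  have hxA : x ∈ A := (A.valuation_le_one_iff x).1 hx
  have hker : MulSemiringAction.toRingAut (A.decompositionSubgroup F)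
      (IsLocalRing.ResidueField A) τ = 1 := MonoidHom.mem_ker.1 hτ
  have hres : τ • IsLocalRing.residue A ⟨x, hxA⟩ = IsLocalRing.residue A ⟨x, hxA⟩ := by
    have := congrArg (fun g : RingAut (IsLocalRing.ResidueField A) =>
      g (IsLocalRing.residue A ⟨x, hxA⟩)) hker
    simpa using this
  rw [← IsLocalRing.ResidueField.residue_smul] at hres
  have hmem : τ • (⟨x, hxA⟩ : A) - ⟨x, hxA⟩ ∈ IsLocalRing.maximalIdeal A := by
    rw [← Ideal.Quotient.eq]
    exact hres
  exact (A.valuation_lt_one_iff _).1 hmem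

end Inertia

/-- (M5) GOOD case: `e, f, e - f` units; MULT case: `e = ε ^ p` with `ε` a rational number of
positive valuation, `f` and `f - e` units. -/
theorem local_unramified {K : Type*} [Field K] [DecidableEq K] [Algebra ℚ K]
    (A : ValuationSubring K) (e f : ℚ) (p : ℕ) (hp : p.Prime) (hp2 : p ≠ 2)
    (hpA : A.valuation (p : K) = 1) (h2A : A.valuation (2 : K) = 1)
    (hcase : (A.valuation (algebraMap ℚ K e) = 1 ∧ A.valuation (algebraMap ℚ K f) = 1 ∧
        A.valuation (algebraMap ℚ K (f - e)) = 1) ∨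
      (∃ ε : ℚ, ε ≠ 0 ∧ A.valuation (algebraMap ℚ K ε) < 1 ∧ e = ε ^ p ∧
        A.valuation (algebraMap ℚ K f) = 1 ∧ A.valuation (algebraMap ℚ K (f - e)) = 1))
    (σ : K ≃ₐ[ℚ] K) (hσ : σ ∈ A.inertiaSubgroupIn ℚ)
    (P : ((Wef e f)⁄K).Point) (hP : p • P = 0) : σ • P = P := by
  have hf : A.valuation (algebraMap ℚ K f) = 1 := by
    rcases hcase with h | ⟨_, _, _, _, h, _⟩
    · exact h.2.1
    · exact h
  have hfe : A.valuation (algebraMap ℚ K (f - e)) = 1 := by
    rcases hcase with h | ⟨_, _, _, _, _, h⟩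
    · exact h.2.2
    · exact h
  have he : A.valuation (algebraMap ℚ K e) ≤ 1 := by
    rcases hcase with h | ⟨ε, _, hε, rfl, _, _⟩
    · exact h.1.le
    · rw [map_pow, map_pow]
      exact pow_le_one₀ zero_le hε.le
  -- coefficients of the base change
  have k1 : ((Wef e f)⁄K).a₁ = 0 := by
    show algebraMap ℚ K 0 = 0
    exact _root_.map_zero _
  have k3 : ((Wef e f)⁄K).a₃ = 0 := by
    show algebraMap ℚ K 0 = 0
    exact _root_.map_zero _
  have k2 : ((Wef e f)⁄K).a₂ = -(algebraMap ℚ K e + algebraMap ℚ K f) := by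
    show algebraMap ℚ K (-(e + f)) = _
    rw [map_neg, map_add]
  have k4 : ((Wef e f)⁄K).a₄ = algebraMap ℚ K e * algebraMap ℚ K f := by
    show algebraMap ℚ K (e * f) = _
    rw [map_mul]
  have k6 : ((Wef e f)⁄K).a₆ = 0 := by
    show algebraMap ℚ K 0 = 0
    exact _root_.map_zero _
  have hfe' : A.valuation (algebraMap ℚ K f - algebraMap ℚ K e) = 1 := by rwa [← map_sub]
  have hK : ∀ (x y : K) (h : ((Wef e f)⁄K).Nonsingular x y), 1 < A.valuation x →
      p • Point.some x y h ≠ 0 := by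
    intro x y h hx
    refine lemmaK A ((Wef e f)⁄K) k1 k3 ?_ ?_ ?_ h2A h ?_ p hpA
    · rw [k2, ← A.valuation_le_one_iff, Valuation.map_neg]
      exact Valuation.map_add_le _ he hf.le
    · rw [k4, ← A.valuation_le_one_iff, map_mul, hf, mul_one]
      exact he
    · rw [k6]; exact A.zero_mem
    · rw [← A.valuation_le_one_iff]
      exact not_le.2 hx
  refine local_unramified_core A.valuation σ (local_inertia_val A σ hσ) (Wef e f) e f
    rfl rfl rfl rfl rfl (hp.odd_of_ne_two hp2) h2A hf hfe he hK ?_ P hP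
  intro x y h htor hxlt helt
  rcases hcase with h' | ⟨ε, hε0, hε, heε, -, -⟩
  · rw [h'.1] at helt
    exact absurd helt (lt_irrefl _)
  · have hε0' : algebraMap ℚ K ε ≠ 0 := by
      rwa [Ne, map_eq_zero_iff _ (algebraMap ℚ K).injective]
    have hpos : 0 < A.valuation (algebraMap ℚ K ε) :=
      zero_lt_iff.2 ((Valuation.ne_zero_iff _).2 hε0')
    have heε' : algebraMap ℚ K e = algebraMap ℚ K ε ^ p := by rw [heε, map_pow]
    obtain ⟨j, hjp, hj⟩ := torsion_val A ((Wef e f)⁄K) (algebraMap ℚ K e)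
      (algebraMap ℚ K f) (algebraMap ℚ K ε) p hp hp2 k1 k2 k3 k4 k6 hε0' hε heε'
      hf hfe' h2A h hxlt htor
    refine ⟨?_, ε ^ (2 * j), ?_⟩
    · rw [heε', map_pow, hj]
      exact pow_lt_pow_right_of_lt_one₀ hpos hε hjp
    · rw [map_pow, map_pow, hj]

end Fermat.Agent.S05
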