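import Fermat.Agent.S05.Defs
import Fermat.Prelude.Def_FLTPrelim_GaloisRep

/-!
# S05 / M1: transfer between `y² + xy = x³ + a₂x² + a₄x` and `Y² = X³ + b₂X² + b₄X + b₆`
(OWNER: helper2)

The substitution `X = 4x - τ`, `Y = 8y + 4x` carries the curve
`W₁ : y² + xy = x³ + a₂x² + a₄x` to the curve `W₂ : Y² = X³ + b₂X² + b₄X + b₆` with
`X³ + b₂X² + b₄X + b₆ = (X+τ)³ + (4a₂+1)(X+τ)² + 16a₄(X+τ)`.
We construct the induced map on nonsingular points, prove that it is an injective group
homomorphism, and that for curves defined over `ℚ` it commutes with the Galois action.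
-/

set_option autoImplicit false

namespace Fermat.Agent.S05

open WeierstrassCurve WeierstrassCurve.Affine

section field

variable {F : Type*} [Field F]

/-- The hypotheses relating the two curves. -/
structure IsTransfer (W₁ W₂ : WeierstrassCurve.Affine F) (τ : F) : Prop where
  two_ne : (2 : F) ≠ 0
  a₁ : W₁.a₁ = 1
  a₃ : W₁.a₃ = 0
  a₆ : W₁.a₆ = 0
  b₁ : W₂.a₁ = 0
  b₃ : W₂.a₃ = 0
  b₂ : W₂.a₂ = 3 * τ + 4 * W₁.a₂ + 1
  b₄ : W₂.a₄ = 3 * τ ^ 2 + 2 * τ * (4 * W₁.a₂ + 1) + 16 * W₁.a₄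
  b₆ : W₂.a₆ = τ ^ 3 + (4 * W₁.a₂ + 1) * τ ^ 2 + 16 * W₁.a₄ * τ

variable {W₁ W₂ : WeierstrassCurve.Affine F} {τ : F}

theorem IsTransfer.four_ne (h : IsTransfer W₁ W₂ τ) : (4 : F) ≠ 0 := by
  have : (4 : F) = 2 * 2 := by norm_num
  rw [this]
  exact mul_ne_zero h.two_ne h.two_ne

theorem IsTransfer.eight_ne (h : IsTransfer W₁ W₂ τ) : (8 : F) ≠ 0 := by
  have : (8 : F) = 2 * 2 * 2 := by norm_num
  rw [this]
  exact mul_ne_zero (mul_ne_zero h.two_ne h.two_ne) h.two_ne

theorem transfer_equation (h : IsTransfer W₁ W₂ τ) (x y : F) :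
    W₂.Equation (4 * x - τ) (8 * y + 4 * x) ↔ W₁.Equation x y := by
  rw [equation_iff, equation_iff, h.a₁, h.a₃, h.a₆, h.b₁, h.b₃, h.b₂, h.b₄, h.b₆]
  have h64 : (64 : F) ≠ 0 := by
    have : (64 : F) = 8 * 8 := by norm_num
    rw [this]
    exact mul_ne_zero h.eight_ne h.eight_ne
  constructor
  · intro H
    apply mul_left_cancel₀ h64
    linear_combination H
  · intro H
    linear_combination 64 * H

theorem transfer_nonsingular (h : IsTransfer W₁ W₂ τ) (x y : F) :
    W₂.Nonsingular (4 * x - τ) (8 * y + 4 * x) ↔ W₁.Nonsingular x y := by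
  rw [nonsingular_iff, nonsingular_iff, transfer_equation h, h.a₁, h.a₃, h.b₁, h.b₃, h.b₂, h.b₄]
  have h8 := h.eight_ne
  have h2 := h.two_ne
  refine and_congr_right fun _ => ?_
  constructor
  · rintro (H | H)
    · by_cases hy : y = -y - 1 * x - 0
      · left
        intro hc
        apply H
        have hy' : 2 * y + x = 0 := by linear_combination hy
        linear_combination (16 : F) * hc - 8 * hy'
      · exact Or.inr hy
    · right
      intro hc
      apply H
      linear_combination 8 * hc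
  · rintro (H | H)
    · by_cases hy : 8 * y + 4 * x = -(8 * y + 4 * x) - 0 * (4 * x - τ) - 0
      · left
        intro hc
        apply H
        have hy' : 2 * y + x = 0 := by
          apply mul_left_cancel₀ h8
          linear_combination hy
        apply mul_left_cancel₀ h.four_ne
        apply mul_left_cancel₀ h.four_ne
        linear_combination hc + 8 * hy'
      · exact Or.inr hy
    · right
      intro hc
      apply H
      apply mul_left_cancel₀ h8
      linear_combination hc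

theorem transfer_negY (h : IsTransfer W₁ W₂ τ) (x y : F) :
    W₂.negY (4 * x - τ) (8 * y + 4 * x) = 8 * W₁.negY x y + 4 * x := by
  simp only [negY, h.a₁, h.a₃, h.b₁, h.b₃]
  ring

variable [DecidableEq F]

theorem transfer_slope (h : IsTransfer W₁ W₂ τ) {x₁ x₂ y₁ y₂ : F}
    (h₁ : W₁.Equation x₁ y₁) (h₂ : W₁.Equation x₂ y₂)
    (hxy : ¬(x₁ = x₂ ∧ y₁ = W₁.negY x₂ y₂)) :
    W₂.slope (4 * x₁ - τ) (4 * x₂ - τ) (8 * y₁ + 4 * x₁) (8 * y₂ + 4 * x₂) =
      2 * W₁.slope x₁ x₂ y₁ y₂ + 1 := by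
  have h4 := h.four_ne
  have h8 := h.eight_ne
  by_cases hx : x₁ = x₂
  · have hy : y₁ ≠ W₁.negY x₂ y₂ := fun hy => hxy ⟨hx, hy⟩
    have hX : 4 * x₁ - τ = 4 * x₂ - τ := by rw [hx]
    have hY : 8 * y₁ + 4 * x₁ ≠ W₂.negY (4 * x₂ - τ) (8 * y₂ + 4 * x₂) := by
      rw [transfer_negY h]
      intro hc
      apply hy
      apply mul_left_cancel₀ h8
      rw [hx] at hc
      linear_combination hc
    rw [slope_of_Y_ne hX hY, slope_of_Y_ne hx hy, transfer_negY h]
    simp only [negY, h.a₁, h.a₃, h.b₁, h.b₂, h.b₄] at hy ⊢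
    have hyy : y₁ = y₂ := Y_eq_of_Y_ne h₁ h₂ hx (fun hc => hxy ⟨hx, hc⟩)
    have hd : 2 * y₁ + x₁ ≠ 0 := by
      intro hc
      apply hy
      rw [← hx, ← hyy]
      linear_combination hc
    have e1 : y₁ - (-y₁ - 1 * x₁ - 0) = 2 * y₁ + x₁ := by ring
    have e2 : 8 * y₁ + 4 * x₁ - (8 * (-y₁ - 1 * x₁ - 0) + 4 * x₁) = 8 * (2 * y₁ + x₁) := by ring
    rw [e1, e2]
    field_simp
    ring
  · have hX : 4 * x₁ - τ ≠ 4 * x₂ - τ := by
      intro hc
      apply hx
      apply mul_left_cancel₀ h4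
      linear_combination hc
    rw [slope_of_X_ne hX, slope_of_X_ne hx]
    have hd : x₁ - x₂ ≠ 0 := sub_ne_zero.mpr hx
    have hd' : 4 * x₁ - τ - (4 * x₂ - τ) ≠ 0 := sub_ne_zero.mpr hX
    field_simp
    ring

omit [DecidableEq F] in
theorem transfer_addX (h : IsTransfer W₁ W₂ τ) (x₁ x₂ ℓ : F) :
    W₂.addX (4 * x₁ - τ) (4 * x₂ - τ) (2 * ℓ + 1) = 4 * W₁.addX x₁ x₂ ℓ - τ := by
  simp only [addX, h.a₁, h.b₁, h.b₂]
  ring

omit [DecidableEq F] in
theorem transfer_negAddY (h : IsTransfer W₁ W₂ τ) (x₁ x₂ y₁ ℓ : F) :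
    W₂.negAddY (4 * x₁ - τ) (4 * x₂ - τ) (8 * y₁ + 4 * x₁) (2 * ℓ + 1) =
      8 * W₁.negAddY x₁ x₂ y₁ ℓ + 4 * W₁.addX x₁ x₂ ℓ := by
  simp only [negAddY, transfer_addX h]
  ring

omit [DecidableEq F] in
theorem transfer_addY (h : IsTransfer W₁ W₂ τ) (x₁ x₂ y₁ ℓ : F) :
    W₂.addY (4 * x₁ - τ) (4 * x₂ - τ) (8 * y₁ + 4 * x₁) (2 * ℓ + 1) =
      8 * W₁.addY x₁ x₂ y₁ ℓ + 4 * W₁.addX x₁ x₂ ℓ := by
  simp only [addY, transfer_negAddY h, transfer_addX h, transfer_negY h]

/-- The transfer map on points, as a function. -/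
def transferFun (h : IsTransfer W₁ W₂ τ) : W₁.Point → W₂.Point
  | 0 => 0
  | .some x y hxy => .some (4 * x - τ) (8 * y + 4 * x) ((transfer_nonsingular h x y).mpr hxy)

omit [DecidableEq F] in
theorem point_some_congr {W : WeierstrassCurve.Affine F} {x x' y y' : F}
    (h : W.Nonsingular x y) (h' : W.Nonsingular x' y') (hx : x = x') (hy : y = y') :
    Point.some x y h = Point.some x' y' h' := by
  subst hx hy
  rfl

/-- The transfer map on points, as a group homomorphism. -/
def transfer (h : IsTransfer W₁ W₂ τ) : W₁.Point →+ W₂.Point where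
  toFun := transferFun h
  map_zero' := rfl
  map_add' := by
    rintro (_ | ⟨x₁, y₁, h₁⟩) (_ | ⟨x₂, y₂, h₂⟩)
    any_goals rfl
    by_cases hxy : x₁ = x₂ ∧ y₁ = W₁.negY x₂ y₂
    · rw [Point.add_of_Y_eq hxy.left hxy.right]
      simp only [transferFun]
      rw [Point.add_of_Y_eq (by rw [hxy.left]) (by rw [transfer_negY h, ← hxy.right, hxy.left])]
    · have hxy' : ¬(4 * x₁ - τ = 4 * x₂ - τ ∧
          8 * y₁ + 4 * x₁ = W₂.negY (4 * x₂ - τ) (8 * y₂ + 4 * x₂)) := by
        rintro ⟨hX, hY⟩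
        have hx : x₁ = x₂ := by
          apply mul_left_cancel₀ h.four_ne
          linear_combination hX
        refine hxy ⟨hx, ?_⟩
        rw [transfer_negY h, hx] at hY
        apply mul_left_cancel₀ h.eight_ne
        linear_combination hY
      rw [Point.add_some hxy]
      simp only [transferFun]
      rw [Point.add_some hxy']
      apply point_some_congr
      · rw [transfer_slope h h₁.1 h₂.1 hxy, transfer_addX h]
      · rw [transfer_slope h h₁.1 h₂.1 hxy, transfer_addY h]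

theorem transfer_some (h : IsTransfer W₁ W₂ τ) {x y : F} (hxy : W₁.Nonsingular x y) :
    transfer h (.some x y hxy) =
      .some (4 * x - τ) (8 * y + 4 * x) ((transfer_nonsingular h x y).mpr hxy) := rfl

theorem transfer_zero (h : IsTransfer W₁ W₂ τ) : transfer h 0 = 0 := rfl

theorem transfer_injective (h : IsTransfer W₁ W₂ τ) : Function.Injective (transfer h) := by
  rintro (_ | ⟨x₁, y₁, h₁⟩) (_ | ⟨x₂, y₂, h₂⟩) H
  · rfl
  · exact absurd H (by
      change (0 : W₂.Point) ≠ Point.some _ _ _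
      exact fun hc => by cases hc)
  · exact absurd H (by
      change Point.some _ _ _ ≠ (0 : W₂.Point)
      exact fun hc => by cases hc)
  · simp only [transfer_some, Point.some.injEq] at H
    have hx : x₁ = x₂ := by
      apply mul_left_cancel₀ h.four_ne
      linear_combination H.1
    have hy : y₁ = y₂ := by
      apply mul_left_cancel₀ h.eight_ne
      have := H.2
      rw [hx] at this
      linear_combination this
    subst hx hy
    rfl

end field

section rat

variable {K : Type*} [Field K] [Algebra ℚ K]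

/-- The numerical conditions on `(τ, e, f)` making `X = 4x - τ`, `Y = 8y + 4x` a transfer from
`E : y² + xy = x³ + a₂x² + a₄x` to `Y² = X (X - e) (X - f)`. -/
structure IsTransferRat (E : WeierstrassCurve.Affine ℚ) (τ e f : ℚ) : Prop where
  a₁ : E.a₁ = 1
  a₃ : E.a₃ = 0
  a₆ : E.a₆ = 0
  h2 : 3 * τ + 4 * E.a₂ + 1 = -(e + f)
  h4 : 3 * τ ^ 2 + 2 * τ * (4 * E.a₂ + 1) + 16 * E.a₄ = e * f
  h6 : τ ^ 3 + (4 * E.a₂ + 1) * τ ^ 2 + 16 * E.a₄ * τ = 0

theorem IsTransferRat.isTransfer {E : WeierstrassCurve.Affine ℚ} {τ e f : ℚ}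
    (h : IsTransferRat E τ e f) (K : Type*) [Field K] [Algebra ℚ K] :
    IsTransfer (E⁄K) ((Wef e f)⁄K) (algebraMap ℚ K τ) where
  two_ne := by
    have : (2 : K) = algebraMap ℚ K 2 := by simp
    rw [this]
    exact (map_ne_zero (algebraMap ℚ K)).mpr (by norm_num)
  a₁ := by simp [h.a₁]
  a₃ := by simp [h.a₃]
  a₆ := by simp [h.a₆]
  b₁ := by simp
  b₃ := by simp
  b₂ := by
    have : CharZero K := algebraRat.charZero K
    have := congrArg (fun q : ℚ => (q : K)) h.h2
    push_cast at this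
    simp
    linear_combination -this
  b₄ := by
    have : CharZero K := algebraRat.charZero K
    have := congrArg (fun q : ℚ => (q : K)) h.h4
    push_cast at this
    simp
    linear_combination -this
  b₆ := by
    have : CharZero K := algebraRat.charZero K
    have := congrArg (fun q : ℚ => (q : K)) h.h6
    push_cast at this
    simp
    linear_combination -this

/-- (M1) the transfer map: an injective additive map, equivariant for every `σ : K ≃ₐ[ℚ] K`. -/
theorem transfer_exists {K : Type*} [Field K] [DecidableEq K] [Algebra ℚ K]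
    (W₁ : WeierstrassCurve ℚ) (τ e f : ℚ)
    (h₁ : W₁.a₁ = 1) (h₃ : W₁.a₃ = 0) (h₆ : W₁.a₆ = 0)
    (k₂ : -(e + f) = 1 + 3 * τ + 4 * W₁.a₂)
    (k₄ : e * f = 16 * W₁.a₄ + 3 * τ ^ 2 + 2 * τ + 8 * W₁.a₂ * τ)
    (k₆ : τ * (τ + e) * (τ + f) = 0) :
    ∃ Φ : (W₁⁄K).Point →+ ((Wef e f)⁄K).Point, Function.Injective Φ ∧
      ∀ (σ : K ≃ₐ[ℚ] K) (P : (W₁⁄K).Point), Φ (σ • P) = σ • Φ P := by
  have h : IsTransferRat W₁ τ e f :=
    { a₁ := h₁
      a₃ := h₃
      a₆ := h₆
      h2 := by linear_combination -k₂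
      h4 := by linear_combination -k₄
      h6 := by linear_combination k₆ + τ ^ 2 * k₂ - τ * k₄ }
  refine ⟨transfer (h.isTransfer K), transfer_injective _, ?_⟩
  rintro σ (_ | ⟨x, y, hxy⟩)
  · rfl
  · rw [Point.algEquiv_smul_def, Point.algEquiv_smul_def, transfer_some, Point.map_some,
      Point.map_some, transfer_some]
    apply point_some_congr
    · simp only [map_sub, map_mul, map_ofNat, AlgHom.commutes]
    · simp only [map_add, map_mul, map_ofNat]

end rat

end Fermat.Agent.S05
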