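import Fermat.Agent.S05.Val
import Fermat.Agent.S05.Transfer
import Fermat.Agent.S05.Local

/-!
# S05 / M6 — assembly: the Frey curve is unramified at every odd prime `q ≠ p`

OWNER: helper9.
-/

set_option autoImplicit false

namespace Fermat.Agent.S05

open WeierstrassCurve WeierstrassCurve.Affine WeierstrassCurve.Affine.Point

/-- core of the assembly: given the transfer data `(τ, e, f)` and the GOOD/MULT alternative. -/
theorem frey_unramified_of_data (P : FreyPackage) {q : ℕ} (hq : q.Prime) (hq2 : q ≠ 2)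
    (hqp : q ≠ P.p) (A : ValuationSubring (AlgebraicClosure ℚ)) (hA : A.LiesOverPrime q)
    (τ e f : ℚ)
    (k₂ : -(e + f) = 1 + 3 * τ + 4 * P.freyCurve.a₂)
    (k₄ : e * f = 16 * P.freyCurve.a₄ + 3 * τ ^ 2 + 2 * τ + 8 * P.freyCurve.a₂ * τ)
    (k₆ : τ * (τ + e) * (τ + f) = 0)
    (hcase : (A.valuation (algebraMap ℚ (AlgebraicClosure ℚ) e) = 1 ∧
        A.valuation (algebraMap ℚ (AlgebraicClosure ℚ) f) = 1 ∧
        A.valuation (algebraMap ℚ (AlgebraicClosure ℚ) (f - e)) = 1) ∨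
      (∃ ε : ℚ, ε ≠ 0 ∧ A.valuation (algebraMap ℚ (AlgebraicClosure ℚ) ε) < 1 ∧ e = ε ^ P.p ∧
        A.valuation (algebraMap ℚ (AlgebraicClosure ℚ) f) = 1 ∧
        A.valuation (algebraMap ℚ (AlgebraicClosure ℚ) (f - e)) = 1))
    (σ : AlgebraicClosure ℚ ≃ₐ[ℚ] AlgebraicClosure ℚ) (hσ : σ ∈ A.inertiaSubgroupIn ℚ)
    (x : Submodule.torsionBy ℤ (P.freyCurve⁄(AlgebraicClosure ℚ)).Point P.p) : σ • x = x := by
  obtain ⟨Φ, hΦinj, hΦσ⟩ := transfer_exists (K := AlgebraicClosure ℚ) P.freyCurve τ e f rfl rfl rfl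
    k₂ k₄ k₆
  have hp2 : P.p ≠ 2 := by have := P.hp5; omega
  have hpA : A.valuation ((P.p : ℕ) : AlgebraicClosure ℚ) = 1 :=
    val_natCast_eq_one_of_not_dvd A hq hA (fun h => hqp ((Nat.prime_dvd_prime_iff_eq hq P.pp).1 h))
  have h2A : A.valuation (2 : AlgebraicClosure ℚ) = 1 := by
    have := val_natCast_eq_one_of_not_dvd A hq hA (m := 2)
      (fun h => hq2 ((Nat.prime_dvd_prime_iff_eq hq Nat.prime_two).1 h))
    simpa using this
  have hx : (P.p : ℤ) • (x : (P.freyCurve⁄(AlgebraicClosure ℚ)).Point) = 0 :=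
    (Submodule.mem_torsionBy_iff _ _).1 x.2
  have hx' : P.p • (x : (P.freyCurve⁄(AlgebraicClosure ℚ)).Point) = 0 := by
    rw [← hx, natCast_zsmul]
  have hΦx : P.p • Φ (x : (P.freyCurve⁄(AlgebraicClosure ℚ)).Point) = 0 := by
    rw [← map_nsmul, hx', _root_.map_zero]
  have key := local_unramified A e f P.p P.pp hp2 hpA h2A hcase σ hσ _ hΦx
  apply Subtype.ext
  apply hΦinj
  show Φ (σ • (x : (P.freyCurve⁄(AlgebraicClosure ℚ)).Point)) = Φ x
  rw [hΦσ, key]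


section arith

variable (A : ValuationSubring (AlgebraicClosure ℚ))

lemma val_algebraMap_intCast_pow (m : ℤ) (n : ℕ) :
    A.valuation (algebraMap ℚ (AlgebraicClosure ℚ) ((m : ℚ) ^ n)) =
      A.valuation ((m : ℤ) : AlgebraicClosure ℚ) ^ n := by
  rw [map_pow, map_intCast, map_pow]

lemma val_algebraMap_neg (x : ℚ) :
    A.valuation (algebraMap ℚ (AlgebraicClosure ℚ) (-x)) =
      A.valuation (algebraMap ℚ (AlgebraicClosure ℚ) x) := by
  rw [map_neg, Valuation.map_neg]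

lemma not_dvd_of_gcd_eq_one {q : ℕ} (hq : q.Prime) {a b : ℤ} (h : gcd a b = 1)
    (ha : (q : ℤ) ∣ a) : ¬ (q : ℤ) ∣ b := by
  intro hb
  have h1 : (q : ℤ) ∣ gcd a b := dvd_gcd ha hb
  rw [h] at h1
  have h2 : (q : ℤ) ∣ 1 := h1
  have h3 := Int.natAbs_dvd_natAbs.2 h2
  simp at h3
  exact hq.one_lt.ne' h3

end arith

/-- (M6) the Frey curve is unramified at every odd prime `q ≠ p`. -/
theorem frey_unramified (P : FreyPackage) {q : ℕ} (hq : q.Prime) (hq2 : q ≠ 2)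
    (hqp : q ≠ P.p) : P.GaloisRepUnramifiedAt q := by
  intro A hA σ hσ x
  have hFLT : (P.a : ℚ) ^ P.p + (P.b : ℚ) ^ P.p = (P.c : ℚ) ^ P.p := by
    have := congrArg (Int.cast : ℤ → ℚ) P.hFLT
    push_cast at this
    exact this
  have ha2 : P.freyCurve.a₂ = ((P.b : ℚ) ^ P.p - 1 - (P.a : ℚ) ^ P.p) / 4 := rfl
  have ha4 : P.freyCurve.a₄ = -((P.a : ℚ) ^ P.p) * ((P.b : ℚ) ^ P.p) / 16 := rfl
  have hodd : Odd P.p := P.hp_odd
  have unit_pow : ∀ m : ℤ, ¬ (q : ℤ) ∣ m →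
      A.valuation (algebraMap ℚ (AlgebraicClosure ℚ) ((m : ℚ) ^ P.p)) = 1 := by
    intro m hm
    rw [val_algebraMap_intCast_pow, val_intCast_eq_one_of_not_dvd A hq hA hm, one_pow]
  have small : ∀ m : ℤ, (q : ℤ) ∣ m →
      A.valuation (algebraMap ℚ (AlgebraicClosure ℚ) ((-m : ℤ) : ℚ)) < 1 := by
    intro m hm
    rw [map_intCast]
    exact val_intCast_lt_one_of_dvd A hA ((dvd_neg).2 hm)
  by_cases ha : (q : ℤ) ∣ P.a
  · -- `q ∣ a`
    have hb : ¬ (q : ℤ) ∣ P.b := not_dvd_of_gcd_eq_one hq P.hgcdab ha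
    have hc : ¬ (q : ℤ) ∣ P.c := not_dvd_of_gcd_eq_one hq P.hgcdac ha
    refine frey_unramified_of_data P hq hq2 hqp A hA 0 ((P.a : ℚ) ^ P.p) (-((P.b : ℚ) ^ P.p))
      (by rw [ha2]; ring) (by rw [ha2, ha4]; ring) (by ring) (Or.inr ⟨(P.a : ℚ), ?_, ?_, rfl, ?_, ?_⟩)
      σ hσ x
    · exact_mod_cast P.ha0
    · rw [map_intCast]; exact val_intCast_lt_one_of_dvd A hA ha
    · rw [val_algebraMap_neg]; exact unit_pow _ hb
    · have : -((P.b : ℚ) ^ P.p) - (P.a : ℚ) ^ P.p = -((P.c : ℚ) ^ P.p) := by rw [← hFLT]; ring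
      rw [this, val_algebraMap_neg]; exact unit_pow _ hc
  by_cases hb : (q : ℤ) ∣ P.b
  · -- `q ∣ b`
    have hc : ¬ (q : ℤ) ∣ P.c := not_dvd_of_gcd_eq_one hq P.hgcdbc hb
    refine frey_unramified_of_data P hq hq2 hqp A hA 0 (-((P.b : ℚ) ^ P.p)) ((P.a : ℚ) ^ P.p)
      (by rw [ha2]; ring) (by rw [ha2, ha4]; ring) (by ring)
      (Or.inr ⟨((-P.b : ℤ) : ℚ), ?_, small _ hb, ?_, unit_pow _ ha, ?_⟩) σ hσ x
    · have := P.hb0
      exact_mod_cast neg_ne_zero.2 this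
    · push_cast
      rw [Odd.neg_pow hodd]
    · have : (P.a : ℚ) ^ P.p - -((P.b : ℚ) ^ P.p) = (P.c : ℚ) ^ P.p := by rw [← hFLT]; ring
      rw [this]; exact unit_pow _ hc
  by_cases hc : (q : ℤ) ∣ P.c
  · -- `q ∣ c`
    refine frey_unramified_of_data P hq hq2 hqp A hA ((P.a : ℚ) ^ P.p) (-((P.c : ℚ) ^ P.p))
      (-((P.a : ℚ) ^ P.p))
      (by rw [ha2, ← hFLT]; ring) (by rw [ha2, ha4, ← hFLT]; ring) (by ring)
      (Or.inr ⟨((-P.c : ℤ) : ℚ), ?_, small _ hc, ?_, ?_, ?_⟩) σ hσ x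
    · have := P.hc0
      exact_mod_cast neg_ne_zero.2 this
    · push_cast
      rw [Odd.neg_pow hodd]
    · rw [val_algebraMap_neg]; exact unit_pow _ ha
    · have : -((P.a : ℚ) ^ P.p) - -((P.c : ℚ) ^ P.p) = (P.b : ℚ) ^ P.p := by rw [← hFLT]; ring
      rw [this]; exact unit_pow _ hb
  · -- good reduction
    refine frey_unramified_of_data P hq hq2 hqp A hA 0 ((P.a : ℚ) ^ P.p) (-((P.b : ℚ) ^ P.p))
      (by rw [ha2]; ring) (by rw [ha2, ha4]; ring) (by ring) (Or.inl ⟨unit_pow _ ha, ?_, ?_⟩)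
      σ hσ x
    · rw [val_algebraMap_neg]; exact unit_pow _ hb
    · have : -((P.b : ℚ) ^ P.p) - (P.a : ℚ) ^ P.p = -((P.c : ℚ) ^ P.p) := by rw [← hFLT]; ring
      rw [this, val_algebraMap_neg]; exact unit_pow _ hc

end Fermat.Agent.S05
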