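import Mathlib

/-!
# S05 — shared definitions

`Wef e f` is the curve `Y² = X (X - e) (X - f)`.

Conventions used in all S05 files (namespace `Fermat.Agent.S05`):
* `K` is a field, `A : ValuationSubring K`; the valuation `A.valuation` is MULTIPLICATIVE:
  `x ∈ A ↔ A.valuation x ≤ 1`, `x ∈ A.nonunits ↔ A.valuation x < 1`,
  "`x` is a unit of `A`" is written `A.valuation x = 1`.
* curves over `K` are `W : WeierstrassCurve.Affine K` with hypotheses `W.a₁ = 0`, `W.a₃ = 0`, ...
  (so that the lemmas apply verbatim to base changes).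
-/

set_option autoImplicit false

namespace Fermat.Agent.S05

/-- The curve `Y² = X (X - e) (X - f)`. -/
def Wef {F : Type*} [CommRing F] (e f : F) : WeierstrassCurve F :=
  ⟨0, -(e + f), 0, e * f, 0⟩

@[simp] lemma Wef_a₁ {F : Type*} [CommRing F] (e f : F) : (Wef e f).a₁ = 0 := rfl
@[simp] lemma Wef_a₂ {F : Type*} [CommRing F] (e f : F) : (Wef e f).a₂ = -(e + f) := rfl
@[simp] lemma Wef_a₃ {F : Type*} [CommRing F] (e f : F) : (Wef e f).a₃ = 0 := rfl
@[simp] lemma Wef_a₄ {F : Type*} [CommRing F] (e f : F) : (Wef e f).a₄ = e * f := rfl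
@[simp] lemma Wef_a₆ {F : Type*} [CommRing F] (e f : F) : (Wef e f).a₆ = 0 := rfl

end Fermat.Agent.S05
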