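import Fermat.Agent.S05.XOnly

/-!
# S05 / M3 (Lemma K), independent proof  (helper6)

On `Y² = X³ + a₂X² + a₄X + a₆` with `v(a_i) ≤ 1`, `v(2) = 1`: a point `P = (x₁, y₁)` with
`v(x₁) > 1` (non-integral `x`-coordinate) is not killed by any integer `m` with `v(m) = 1`.

Method: induction on `k` of the claim
"`k • P = 0` and `v(k) < 1`, or `k • P = (x_k, _)` and `x_k ρ = x₁` with `v(ρ) ≤ 1`,
`v(ρ - k²) < 1`".
-/

set_option autoImplicit false
set_option linter.unusedSectionVars false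
set_option linter.unusedVariables false
set_option linter.unnecessarySimpa false

namespace Fermat.Agent.S05

open WeierstrassCurve WeierstrassCurve.Affine

variable {K : Type*} [Field K] {Γ₀ : Type*} [LinearOrderedCommGroupWithZero Γ₀]
  (v : Valuation K Γ₀)

theorem kstep_lt_mul {a b : K} (ha : v a < 1) (hb : v b ≤ 1) : v (a * b) < 1 := by
  rw [map_mul]
  calc v a * v b ≤ v a * 1 := mul_le_mul' le_rfl hb
    _ < 1 := by rw [mul_one]; exact ha

theorem kstep_lt_mul' {a b : K} (ha : v a ≤ 1) (hb : v b < 1) : v (a * b) < 1 := by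
  rw [mul_comm]; exact kstep_lt_mul v hb ha

theorem kstep_lt_add {a b : K} (ha : v a < 1) (hb : v b < 1) : v (a + b) < 1 :=
  lt_of_le_of_lt (v.map_add a b) (max_lt ha hb)

theorem kstep_lt_sub {a b : K} (ha : v a < 1) (hb : v b < 1) : v (a - b) < 1 := by
  rw [sub_eq_add_neg]
  exact kstep_lt_add v ha (by rwa [Valuation.map_neg])

theorem kstep_natCast_le (n : ℕ) : v (n : K) ≤ 1 := by
  induction n with
  | zero => simp
  | succ n ih =>
    push_cast
    exact (v.map_add _ _).trans (max_le ih (by simp))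

theorem kstep_mem_integer {a : K} : a ∈ v.integer ↔ v a ≤ 1 := Iff.rfl

/-- Step (iii): pure algebra. -/
theorem kstep_alg {a₂ a₄ a₆ x₁ x xp xm ρ ρm : K}
    (ha2 : v a₂ ≤ 1) (ha4 : v a₄ ≤ 1) (ha6 : v a₆ ≤ 1) (hx₁ : 1 < v x₁)
    (hρ : v ρ ≤ 1) (hρm : v ρm ≤ 1) (hx : x * ρ = x₁) (hxm : xm * ρm = x₁)
    (hprod : xp * xm * (x - x₁) ^ 2 = (x * x₁ - a₄) ^ 2 - 4 * a₆ * (x + x₁ + a₂))
    (hsum : (xp + xm) * (x - x₁) ^ 2 =
      2 * ((x + x₁) * (x * x₁ + a₄) + 2 * a₂ * x * x₁ + 2 * a₆)) :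
    ∃ ρp : K, v ρp ≤ 1 ∧ xp * ρp = x₁ ∧ v (ρp + ρm - 2 * (1 + ρ)) < 1 := by
  have hx₁0 : x₁ ≠ 0 := by
    rintro rfl
    simp at hx₁
  have hρ0 : ρ ≠ 0 := by
    rintro rfl
    exact hx₁0 (by rw [← hx, mul_zero])
  have hρm0 : ρm ≠ 0 := by
    rintro rfl
    exact hx₁0 (by rw [← hxm, mul_zero])
  obtain ⟨u, hu⟩ : ∃ u : K, u = x₁⁻¹ := ⟨_, rfl⟩
  have hux : x₁ * u = 1 := by rw [hu]; exact mul_inv_cancel₀ hx₁0
  have hvu : v u < 1 := by
    rw [hu, map_inv₀]
    exact inv_lt_one_of_one_lt₀ hx₁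
  have hu' : u ∈ v.integer := hvu.le
  have h2' : (2 : K) ∈ v.integer := by
    have := kstep_natCast_le v 2
    simpa using this
  have h4' : (4 : K) ∈ v.integer := by
    have := kstep_natCast_le v 4
    simpa using this
  have ha2' : a₂ ∈ v.integer := ha2
  have ha4' : a₄ ∈ v.integer := ha4
  have ha6' : a₆ ∈ v.integer := ha6
  have hρ' : ρ ∈ v.integer := hρ
  have hρm' : ρm ∈ v.integer := hρm
  -- the error terms
  set e₁ : K := -2 * a₄ * ρ * u + a₄ ^ 2 * ρ ^ 2 * u ^ 3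
    - 4 * a₆ * ρ * u ^ 2 * (1 + ρ + a₂ * ρ * u) with he₁
  set e₂ : K := 2 * ((1 + ρ) * a₄ * ρ * u + 2 * a₂ * ρ + 2 * a₆ * ρ ^ 2 * u ^ 2) with he₂
  have he₁' : e₁ ∈ v.integer := by
    rw [he₁]
    apply_rules [Subring.add_mem, Subring.sub_mem, Subring.mul_mem, Subring.neg_mem,
      Subring.pow_mem, Subring.one_mem]
  have he₂' : e₂ ∈ v.integer := by
    rw [he₂]
    apply_rules [Subring.add_mem, Subring.sub_mem, Subring.mul_mem, Subring.neg_mem,
      Subring.pow_mem, Subring.one_mem]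
  have hη₁ : v (u * e₁) < 1 := kstep_lt_mul v hvu he₁'
  have hη₂ : v (u * e₂) < 1 := kstep_lt_mul v hvu he₂'
  have hden : v (1 + u * e₁) = 1 := Valuation.map_one_add_of_lt v hη₁
  have hden0 : 1 + u * e₁ ≠ 0 := by
    intro h0
    rw [h0] at hden
    simp at hden
  -- the two key identities
  have hxe : x = x₁ / ρ := eq_div_of_mul_eq hρ0 hx
  have hxme : xm = x₁ / ρm := eq_div_of_mul_eq hρm0 hxm
  have hue : u = 1 / x₁ := by rw [hu, one_div]
  have E1 : xp * u * (1 - ρ) ^ 2 = ρm * (1 + u * e₁) := by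
    rw [hxe, hxme] at hprod
    rw [he₁, hue]
    field_simp
    field_simp at hprod
    linear_combination hprod
  have E2 : (xp + xm) * u * (1 - ρ) ^ 2 = 2 * (1 + ρ) + u * e₂ := by
    rw [hxe, hxme] at hsum
    rw [he₂, hue, hxme]
    field_simp
    field_simp at hsum
    linear_combination hsum
  have E3 : xm * u * (1 - ρ) ^ 2 * ρm = (1 - ρ) ^ 2 := by
    rw [hxme, hue]
    field_simp
  set Nm : K := 2 * (1 + ρ) + u * e₂ - ρm * (1 + u * e₁) with hNm
  have hNm' : Nm ∈ v.integer := by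
    rw [hNm]
    apply_rules [Subring.add_mem, Subring.sub_mem, Subring.mul_mem, Subring.neg_mem,
      Subring.pow_mem, Subring.one_mem]
  have hNmeq : Nm = xm * u * (1 - ρ) ^ 2 := by
    rw [hNm]
    linear_combination E1 - E2
  refine ⟨Nm / (1 + u * e₁), ?_, ?_, ?_⟩
  · rw [map_div₀, hden, div_one]
    exact hNm'
  · rw [mul_div_assoc', div_eq_iff hden0]
    -- xp * Nm = x₁ * (1 + u e₁)
    apply mul_right_cancel₀ hρm0
    rw [hNmeq]
    have : xp * (xm * u * (1 - ρ) ^ 2) * ρm = xp * (xm * u * (1 - ρ) ^ 2 * ρm) := by ring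
    rw [this, E3]
    have : x₁ * (1 + u * e₁) * ρm = x₁ * (ρm * (1 + u * e₁)) := by ring
    rw [this, ← E1]
    linear_combination (-(xp * (1 - ρ) ^ 2)) * hux
  · -- ρp + ρm - 2 (1 + ρ) = (u e₂ - u e₁ (ρp + ρm)) ... computed via Nm
    have hρp : v (Nm / (1 + u * e₁)) ≤ 1 := by
      rw [map_div₀, hden, div_one]; exact hNm'
    have key : Nm / (1 + u * e₁) + ρm - 2 * (1 + ρ)
        = u * e₂ - (u * e₁) * (Nm / (1 + u * e₁) + ρm) := by
      field_simp
      rw [hNm]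
      ring
    rw [key]
    refine kstep_lt_sub v hη₂ (kstep_lt_mul v hη₁ ?_)
    exact (v.map_add _ _).trans (max_le hρp hρm)

section curve

variable [DecidableEq K] {W : Affine K}

/-- `y₁ ≠ 0` and the duplication step: `ρ₂ ≡ 4`. -/
theorem kstep_double (h1 : W.a₁ = 0) (h3 : W.a₃ = 0)
    (ha2 : v W.a₂ ≤ 1) (ha4 : v W.a₄ ≤ 1) (ha6 : v W.a₆ ≤ 1) (h2 : v (2 : K) = 1)
    {x₁ y₁ : K} (h : W.Nonsingular x₁ y₁) (hx₁ : 1 < v x₁) :
    ∃ (x₂ y₂ : K) (h₂ : W.Nonsingular x₂ y₂) (ρ₂ : K),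
      Point.some x₁ y₁ h + Point.some x₁ y₁ h = Point.some x₂ y₂ h₂ ∧
      v ρ₂ ≤ 1 ∧ x₂ * ρ₂ = x₁ ∧ v (ρ₂ - 4) < 1 := by
  have hx₁0 : x₁ ≠ 0 := by
    rintro rfl
    simp at hx₁
  have h20 : (2 : K) ≠ 0 := by
    intro h0
    rw [h0] at h2
    simp at h2
  obtain ⟨u, hu⟩ : ∃ u : K, u = x₁⁻¹ := ⟨_, rfl⟩
  have hux : x₁ * u = 1 := by rw [hu]; exact mul_inv_cancel₀ hx₁0
  have hvu : v u < 1 := by
    rw [hu, map_inv₀]
    exact inv_lt_one_of_one_lt₀ hx₁
  have hu' : u ∈ v.integer := hvu.le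
  have h2' : (2 : K) ∈ v.integer := h2.le
  have h4' : (4 : K) ∈ v.integer := by
    have := kstep_natCast_le v 4
    simpa using this
  have h8' : (8 : K) ∈ v.integer := by
    have := kstep_natCast_le v 8
    simpa using this
  have ha2' : W.a₂ ∈ v.integer := ha2
  have ha4' : W.a₄ ∈ v.integer := ha4
  have ha6' : W.a₆ ∈ v.integer := ha6
  set α : K := W.a₂ + W.a₄ * u + W.a₆ * u ^ 2 with hα
  set β : K := -2 * W.a₄ * u - 8 * W.a₆ * u ^ 2 + (W.a₄ ^ 2 - 4 * W.a₂ * W.a₆) * u ^ 3 with hβ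
  have hα' : α ∈ v.integer := by
    rw [hα]
    apply_rules [Subring.add_mem, Subring.sub_mem, Subring.mul_mem, Subring.neg_mem,
      Subring.pow_mem, Subring.one_mem]
  have hβ' : β ∈ v.integer := by
    rw [hβ]
    apply_rules [Subring.add_mem, Subring.sub_mem, Subring.mul_mem, Subring.neg_mem,
      Subring.pow_mem, Subring.one_mem]
  have hvα : v (u * α) < 1 := kstep_lt_mul v hvu hα'
  have hvβ : v (u * β) < 1 := kstep_lt_mul v hvu hβ'
  have hden : v (1 + u * β) = 1 := Valuation.map_one_add_of_lt v hvβ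
  have hnum : v (1 + u * α) = 1 := Valuation.map_one_add_of_lt v hvα
  have hden0 : 1 + u * β ≠ 0 := by
    intro h0
    rw [h0] at hden
    simp at hden
  have hnum0 : 1 + u * α ≠ 0 := by
    intro h0
    rw [h0] at hnum
    simp at hnum
  have hue : u = 1 / x₁ := by rw [hu, one_div]
  have e := xonly_equation h1 h3 h.1
  have ey : y₁ ^ 2 = x₁ ^ 3 * (1 + u * α) := by
    rw [e, hα, hue]
    field_simp
    ring
  have hy : y₁ ≠ 0 := by
    intro h0
    rw [h0] at ey
    have : x₁ ^ 3 * (1 + u * α) ≠ 0 := mul_ne_zero (pow_ne_zero 3 hx₁0) hnum0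
    exact this (by rw [← ey]; simp)
  obtain ⟨x₂, y₂, h₂, hdbl, hx₂⟩ := xonly_double h1 h3 h20 h hy
  have ex : x₂ * (4 * y₁ ^ 2) = x₁ ^ 4 * (1 + u * β) := by
    rw [hx₂, hβ, hue]
    field_simp
    ring
  have hv4 : v (4 : K) = 1 := by
    have : (4 : K) = 2 * 2 := by norm_num
    rw [this, map_mul, h2, mul_one]
  refine ⟨x₂, y₂, h₂, 4 * (1 + u * α) / (1 + u * β), hdbl, ?_, ?_, ?_⟩
  · rw [map_div₀, hden, div_one, map_mul, hv4, hnum, mul_one]
  · rw [mul_div_assoc', div_eq_iff hden0]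
    apply mul_right_cancel₀ (pow_ne_zero 3 hx₁0)
    have : x₂ * (4 * (1 + u * α)) * x₁ ^ 3 = x₂ * (4 * (x₁ ^ 3 * (1 + u * α))) := by ring
    rw [this, ← ey, ex]
    ring
  · have key : 4 * (1 + u * α) / (1 + u * β) - 4 = (4 * (u * α - u * β)) / (1 + u * β) := by
      field_simp
      ring
    rw [key, map_div₀, hden, div_one, map_mul, hv4, one_mul]
    exact kstep_lt_sub v hvα hvβ

/-- The inductive claim. -/
def KClaim (P : W.Point) (x₁ : K) (k : ℕ) : Prop :=
  (k • P = 0 ∧ v (k : K) < 1) ∨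
  (∃ (x y : K) (h : W.Nonsingular x y) (ρ : K),
    k • P = Point.some x y h ∧ v ρ ≤ 1 ∧ x * ρ = x₁ ∧ v (ρ - (k : K) ^ 2) < 1)

theorem kstep_claim (h1 : W.a₁ = 0) (h3 : W.a₃ = 0)
    (ha2 : v W.a₂ ≤ 1) (ha4 : v W.a₄ ≤ 1) (ha6 : v W.a₆ ≤ 1) (h2 : v (2 : K) = 1)
    {x₁ y₁ : K} (h : W.Nonsingular x₁ y₁) (hx₁ : 1 < v x₁) (k : ℕ) :
    KClaim v (Point.some x₁ y₁ h) x₁ k := by
  have hx₁0 : x₁ ≠ 0 := by
    rintro rfl
    simp at hx₁
  have hv4 : v (4 : K) = 1 := by
    have : (4 : K) = 2 * 2 := by norm_num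
    rw [this, map_mul, h2, mul_one]
  induction k using Nat.twoStepInduction with
  | zero => left; simp
  | one =>
    right
    refine ⟨x₁, y₁, h, 1, by simp, by simp, by simp, by simp⟩
  | more k ih0 ih1 =>
    have e1 : (k + 2) • Point.some x₁ y₁ h = (k + 1) • Point.some x₁ y₁ h + Point.some x₁ y₁ h :=
      succ_nsmul _ (k + 1)
    have e2 : k • Point.some x₁ y₁ h = (k + 1) • Point.some x₁ y₁ h - Point.some x₁ y₁ h := by
      rw [succ_nsmul _ k]; abel
    rcases ih1 with ⟨hQ, hvk⟩ | ⟨x, y, hxy, ρ, hQ, hρ, hxρ, hρk⟩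
    · -- `(k+1) P = 0`
      right
      refine ⟨x₁, y₁, h, 1, by rw [e1, hQ, zero_add], by simp, by simp, ?_⟩
      have : (1 : K) - ((k + 2 : ℕ) : K) ^ 2 = -(((k + 1 : ℕ) : K) * ((k + 3 : ℕ) : K)) := by
        push_cast; ring
      rw [this, Valuation.map_neg]
      exact kstep_lt_mul v hvk (kstep_natCast_le v _)
    · by_cases hx : x = x₁
      · -- `(k+1) P = ± P`
        have hρ1 : ρ = 1 := by
          rw [hx] at hxρ
          exact mul_left_cancel₀ hx₁0 (by rw [hxρ, mul_one])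
        obtain ⟨x₂, y₂, h₂, ρ₂, hdbl, hρ₂, hxρ₂, hρ₂4⟩ := kstep_double v h1 h3 ha2 ha4 ha6 h2 h hx₁
        rcases (Point.X_eq_iff (h₁ := hxy) (h₂ := h)).1 hx with heq | heq
        · -- `(k+1) P = P`, so `k P = 0`
          have hk0 : k • Point.some x₁ y₁ h = 0 := by rw [e2, hQ, heq, sub_self]
          have hvk : v (k : K) < 1 := by
            rcases ih0 with ⟨_, hvk⟩ | ⟨x', y', h', ρ', hk, _⟩
            · exact hvk
            · rw [hk0] at hk
              exact absurd hk.symm (Point.some_ne_zero h')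
          right
          refine ⟨x₂, y₂, h₂, ρ₂, by rw [e1, hQ, heq, hdbl], hρ₂, hxρ₂, ?_⟩
          have : ρ₂ - ((k + 2 : ℕ) : K) ^ 2 = (ρ₂ - 4) - (k : K) * ((k + 4 : ℕ) : K) := by
            push_cast; ring
          rw [this]
          exact kstep_lt_sub v hρ₂4 (kstep_lt_mul v hvk (kstep_natCast_le v _))
        · -- `(k+1) P = -P`, so `(k+2) P = 0` and `k P = -2P`
          left
          refine ⟨by rw [e1, hQ, heq, neg_add_cancel], ?_⟩
          have hk2 : k • Point.some x₁ y₁ h = -Point.some x₂ y₂ h₂ := by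
            rw [e2, hQ, heq, ← hdbl]; abel
          -- `k² ≡ 4`
          have hk4 : v ((k : K) ^ 2 - 4) < 1 := by
            rcases ih0 with ⟨hk, _⟩ | ⟨x', y', h', ρ', hk, hρ', hxρ', hρ'k⟩
            · rw [hk2] at hk
              rw [Point.neg_some] at hk
              exact absurd hk (Point.some_ne_zero _)
            · rw [hk2, Point.neg_some] at hk
              have hxx : x₂ = x' := by
                have := hk
                simp only [Point.some.injEq] at this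
                exact this.1
              have hρρ : ρ' = ρ₂ := by
                have hx₂0 : x₂ ≠ 0 := by
                  rintro rfl
                  exact hx₁0 (by rw [← hxρ₂, zero_mul])
                apply mul_left_cancel₀ hx₂0
                rw [hxρ₂, hxx, hxρ']
              have : (k : K) ^ 2 - 4 = (ρ₂ - 4) - (ρ' - (k : K) ^ 2) := by
                rw [hρρ]; ring
              rw [this]
              exact kstep_lt_sub v hρ₂4 hρ'k
          -- `(k+1)² ≡ 1`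
          have hk1 : v (1 - ((k + 1 : ℕ) : K) ^ 2) < 1 := by rw [← hρ1]; exact hρk
          -- hence `2 (k + 2) ≡ 0`
          have h22 : v ((2 : K) * ((k + 2 : ℕ) : K)) < 1 := by
            have : (2 : K) * ((k + 2 : ℕ) : K)
                = -((1 - ((k + 1 : ℕ) : K) ^ 2) + ((k : K) ^ 2 - 4)) := by
              push_cast; ring
            rw [this, Valuation.map_neg]
            exact kstep_lt_add v hk1 hk4
          rwa [map_mul, h2, one_mul] at h22
      · -- `x ≠ x₁`: the main step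
        obtain ⟨xp, yp, xm, ym, hp, hm, hadd, hsub, _, _, hprod, hsum⟩ :=
          xonly_add_sub h1 h3 hxy h hx
        rw [← hQ, ← e1] at hadd
        rw [← hQ, ← e2] at hsub
        rcases ih0 with ⟨hk, _⟩ | ⟨x', y', h', ρm, hk, hρm, hxρm, hρmk⟩
        · rw [hsub] at hk
          exact absurd hk (Point.some_ne_zero _)
        · have hxx : xm = x' := by
            have := hk
            rw [hsub] at this
            simp only [Point.some.injEq] at this
            exact this.1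
          rw [← hxx] at hxρm
          obtain ⟨ρp, hρp, hxρp, hρpk⟩ :=
            kstep_alg v ha2 ha4 ha6 hx₁ hρ hρm hxρ hxρm hprod hsum
          right
          refine ⟨xp, yp, hp, ρp, hadd, hρp, hxρp, ?_⟩
          have : ρp - ((k + 2 : ℕ) : K) ^ 2
              = (ρp + ρm - 2 * (1 + ρ)) - (ρm - (k : K) ^ 2)
                + 2 * (ρ - ((k + 1 : ℕ) : K) ^ 2) := by
            push_cast; ring
          rw [this]
          refine kstep_lt_add v (kstep_lt_sub v hρpk hρmk) ?_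
          exact kstep_lt_mul' v h2.le hρk

/-- **Lemma K** for an abstract valuation. -/
theorem kstep_lemmaK (h1 : W.a₁ = 0) (h3 : W.a₃ = 0)
    (ha2 : v W.a₂ ≤ 1) (ha4 : v W.a₄ ≤ 1) (ha6 : v W.a₆ ≤ 1) (h2 : v (2 : K) = 1)
    {x y : K} (h : W.Nonsingular x y) (hx : 1 < v x) (m : ℕ) (hm : v (m : K) = 1) :
    m • (Point.some x y h) ≠ 0 := by
  rcases kstep_claim v h1 h3 ha2 ha4 ha6 h2 h hx m with ⟨_, hvm⟩ | ⟨x', y', h', ρ, hk, _⟩
  · rw [hm] at hvm
    exact absurd hvm (lt_irrefl _)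
  · rw [hk]
    exact Point.some_ne_zero h'

/-- **Lemma K** for a valuation subring (the frozen shape of `LemmaK.lean`). -/
theorem kstep_lemmaK_subring (A : ValuationSubring K)
    (W : WeierstrassCurve.Affine K) (h1 : W.a₁ = 0) (h3 : W.a₃ = 0)
    (ha2 : W.a₂ ∈ A) (ha4 : W.a₄ ∈ A) (ha6 : W.a₆ ∈ A) (h2 : A.valuation (2 : K) = 1)
    {x y : K} (h : W.Nonsingular x y) (hx : x ∉ A) (m : ℕ) (hm : A.valuation (m : K) = 1) :
    m • (Point.some x y h) ≠ 0 := by
  refine kstep_lemmaK A.valuation h1 h3 ((A.valuation_le_one_iff _).2 ha2)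
    ((A.valuation_le_one_iff _).2 ha4) ((A.valuation_le_one_iff _).2 ha6) h2 h ?_ m hm
  rw [← not_le]
  exact fun hle => hx ((A.valuation_le_one_iff _).1 hle)

end curve

end Fermat.Agent.S05
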