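import Fermat.Agent.S05.Defs
import Fermat.Agent.S05.XOnly

/-!
# S05 / M3 — Lemma K: no prime-to-residue-characteristic torsion in the kernel of reduction

OWNER: helper9.

Induction claim `LKProp k`: either `k • P = O` and `v(k) > 0`, or `k • P = (x_k, _)` with
`x = ρ_k x_k`, `ρ_k ∈ A`, `ρ_k ≡ k²` modulo the maximal ideal.  The step uses the x-only formulas
(`XOnly.lean`): `lk_double_alg` (`ρ₂ ≡ 4`) and `lk_step_alg` (`ρ₊ + ρ₋ ≡ 2 (1 + ρ_k)`).
-/

set_option autoImplicit false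
set_option linter.unusedVariables false
set_option linter.unusedSectionVars false

namespace Fermat.Agent.S05

open WeierstrassCurve WeierstrassCurve.Affine

section valaux

variable {K : Type*} [Field K] (A : ValuationSubring K)

lemma lk_val_lt_of_eq_mul {t E z : K} (ht : A.valuation t < 1) (hE : E ∈ A) (h : z = t * E) :
    A.valuation z < 1 := by
  rw [h, map_mul]
  have hE' : A.valuation E ≤ 1 := (A.valuation_le_one_iff _).2 hE
  calc A.valuation t * A.valuation E ≤ A.valuation t * 1 := mul_le_mul' le_rfl hE'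
    _ < 1 := by rw [mul_one]; exact ht

lemma lk_val_inv_lt {x : K} (hx : x ∉ A) : A.valuation x⁻¹ < 1 := by
  have h1 : ¬ A.valuation x ≤ 1 := fun h => hx ((A.valuation_le_one_iff _).1 h)
  have h2 : 1 < A.valuation x := not_le.1 h1
  have hx0 : x ≠ 0 := by
    rintro rfl
    exact hx A.zero_mem
  rw [map_inv₀]
  exact inv_lt_one_of_one_lt₀ h2

lemma lk_ne_zero_of_not_mem {x : K} (hx : x ∉ A) : x ≠ 0 := by
  rintro rfl
  exact hx A.zero_mem

lemma lk_mem_of_val_sub_lt {ρ c : K} (hc : c ∈ A) (h : A.valuation (ρ - c) < 1) : ρ ∈ A := by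
  have h1 : ρ - c ∈ A := (A.valuation_le_one_iff _).1 h.le
  have : ρ = (ρ - c) + c := by ring
  rw [this]
  exact A.add_mem _ _ h1 hc

/-- doubling: `ρ₂ ≡ 4`. -/
lemma lk_double_alg {a₂ a₄ a₆ x y x' : K} (ha2 : a₂ ∈ A) (ha4 : a₄ ∈ A) (ha6 : a₆ ∈ A)
    (h2 : A.valuation (2 : K) = 1) (hx : x ∉ A)
    (heq : y ^ 2 = x ^ 3 + a₂ * x ^ 2 + a₄ * x + a₆)
    (hdup : x' * (4 * y ^ 2) = x ^ 4 - 2 * a₄ * x ^ 2 - 8 * a₆ * x + a₄ ^ 2 - 4 * a₂ * a₆) :
    ∃ ρ : K, ρ ∈ A ∧ x = ρ * x' ∧ A.valuation (ρ - 4) < 1 := by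
  have hx0 : x ≠ 0 := lk_ne_zero_of_not_mem A hx
  obtain ⟨t, htdef⟩ : ∃ t : K, t = x⁻¹ := ⟨_, rfl⟩
  have ht : A.valuation t < 1 := htdef ▸ lk_val_inv_lt A hx
  have htA : t ∈ A := (A.valuation_le_one_iff _).1 ht.le
  have hxt : x * t = 1 := by rw [htdef]; exact mul_inv_cancel₀ hx0
  clear htdef
  have h20 : (2 : K) ≠ 0 := by
    intro h
    rw [h, map_zero] at h2
    exact zero_ne_one h2
  obtain ⟨ξ, hξ⟩ : ∃ ξ : K, ξ = t * (a₂ + a₄ * t + a₆ * t ^ 2) := ⟨_, rfl⟩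
  obtain ⟨η, hη⟩ : ∃ η : K,
      η = t * (-2 * a₄ * t - 8 * a₆ * t ^ 2 + (a₄ ^ 2 - 4 * a₂ * a₆) * t ^ 3) := ⟨_, rfl⟩
  have hξs : A.valuation ξ < 1 := lk_val_lt_of_eq_mul A ht (by aesop) hξ
  have hηs : A.valuation η < 1 := lk_val_lt_of_eq_mul A ht (by aesop) hη
  have h1η : A.valuation (1 + η) = 1 := A.valuation.map_one_add_of_lt hηs
  have h1ξ : A.valuation (1 + ξ) = 1 := A.valuation.map_one_add_of_lt hξs
  have h1η0 : 1 + η ≠ 0 := by
    intro h; rw [h, map_zero] at h1η; exact zero_ne_one h1η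
  have h1ξ0 : 1 + ξ ≠ 0 := by
    intro h; rw [h, map_zero] at h1ξ; exact zero_ne_one h1ξ
  have hy2 : y ^ 2 = x ^ 3 * (1 + ξ) := by
    rw [heq, hξ]
    have e1 : x ^ 3 * (1 + t * (a₂ + a₄ * t + a₆ * t ^ 2)) =
        x ^ 3 + a₂ * (x ^ 2 * (x * t)) + a₄ * (x * (x * t) ^ 2) + a₆ * (x * t) ^ 3 := by ring
    rw [e1, hxt]; ring
  have hrhs : x ^ 4 - 2 * a₄ * x ^ 2 - 8 * a₆ * x + a₄ ^ 2 - 4 * a₂ * a₆ = x ^ 4 * (1 + η) := by
    rw [hη]
    have e1 : x ^ 4 * (1 + t * (-2 * a₄ * t - 8 * a₆ * t ^ 2 + (a₄ ^ 2 - 4 * a₂ * a₆) * t ^ 3)) =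
        x ^ 4 - 2 * a₄ * (x ^ 2 * (x * t) ^ 2) - 8 * a₆ * (x * (x * t) ^ 3) +
          (a₄ ^ 2 - 4 * a₂ * a₆) * (x * t) ^ 4 := by ring
    rw [e1, hxt]; ring
  have hy0 : (4 : K) * y ^ 2 ≠ 0 := by
    rw [hy2]
    have h4 : (4 : K) ≠ 0 := by
      have : (4 : K) = 2 * 2 := by norm_num
      rw [this]; exact mul_ne_zero h20 h20
    exact mul_ne_zero h4 (mul_ne_zero (pow_ne_zero 3 hx0) h1ξ0)
  refine ⟨4 * (1 + ξ) / (1 + η), ?_, ?_, ?_⟩
  · have hs : A.valuation (4 * (1 + ξ) / (1 + η) - 4) < 1 := by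
      have e : 4 * (1 + ξ) / (1 + η) - 4 = (ξ - η) * (4 / (1 + η)) := by
        field_simp
        ring
      rw [e, map_mul]
      have h4 : A.valuation (4 / (1 + η)) ≤ 1 := by
        rw [map_div₀, h1η, div_one]
        exact (A.valuation_le_one_iff _).2 (by aesop)
      calc A.valuation (ξ - η) * A.valuation (4 / (1 + η)) ≤ A.valuation (ξ - η) * 1 :=
            mul_le_mul' le_rfl h4
        _ < 1 := by rw [mul_one]; exact A.valuation.map_sub_lt hξs hηs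
    exact lk_mem_of_val_sub_lt A (by aesop) hs
  · apply mul_right_cancel₀ hy0
    rw [mul_assoc, hdup, hrhs, hy2]
    field_simp
  · have e : 4 * (1 + ξ) / (1 + η) - 4 = (ξ - η) * (4 / (1 + η)) := by
      field_simp
      ring
    rw [e, map_mul]
    have h4 : A.valuation (4 / (1 + η)) ≤ 1 := by
      rw [map_div₀, h1η, div_one]
      exact (A.valuation_le_one_iff _).2 (by aesop)
    calc A.valuation (ξ - η) * A.valuation (4 / (1 + η)) ≤ A.valuation (ξ - η) * 1 :=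
          mul_le_mul' le_rfl h4
      _ < 1 := by rw [mul_one]; exact A.valuation.map_sub_lt hξs hηs


lemma lk_y_sq_ne_zero {a₂ a₄ a₆ x y : K} (ha2 : a₂ ∈ A) (ha4 : a₄ ∈ A) (ha6 : a₆ ∈ A)
    (hx : x ∉ A) (heq : y ^ 2 = x ^ 3 + a₂ * x ^ 2 + a₄ * x + a₆) : y ≠ 0 := by
  have hx0 : x ≠ 0 := lk_ne_zero_of_not_mem A hx
  obtain ⟨t, htdef⟩ : ∃ t : K, t = x⁻¹ := ⟨_, rfl⟩
  have ht : A.valuation t < 1 := htdef ▸ lk_val_inv_lt A hx
  have htA : t ∈ A := (A.valuation_le_one_iff _).1 ht.le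
  have hxt : x * t = 1 := by rw [htdef]; exact mul_inv_cancel₀ hx0
  clear htdef
  obtain ⟨ξ, hξ⟩ : ∃ ξ : K, ξ = t * (a₂ + a₄ * t + a₆ * t ^ 2) := ⟨_, rfl⟩
  have hξs : A.valuation ξ < 1 := lk_val_lt_of_eq_mul A ht (by aesop) hξ
  have h1ξ : A.valuation (1 + ξ) = 1 := A.valuation.map_one_add_of_lt hξs
  have h1ξ0 : 1 + ξ ≠ 0 := by
    intro h; rw [h, map_zero] at h1ξ; exact zero_ne_one h1ξ
  have hy2 : y ^ 2 = x ^ 3 * (1 + ξ) := by
    rw [heq, hξ]
    have e1 : x ^ 3 * (1 + t * (a₂ + a₄ * t + a₆ * t ^ 2)) =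
        x ^ 3 + a₂ * (x ^ 2 * (x * t)) + a₄ * (x * (x * t) ^ 2) + a₆ * (x * t) ^ 3 := by ring
    rw [e1, hxt]; ring
  intro hy
  rw [hy] at hy2
  have : x ^ 3 * (1 + ξ) ≠ 0 := mul_ne_zero (pow_ne_zero 3 hx0) h1ξ0
  apply this
  rw [← hy2]; ring

/-- the generic step: `ρ₊ + ρ₋ ≡ 2 (1 + ρ_k)`. -/
lemma lk_step_alg {a₂ a₄ a₆ x xk xp xm ρk ρm : K} (ha2 : a₂ ∈ A) (ha4 : a₄ ∈ A) (ha6 : a₆ ∈ A)
    (hx : x ∉ A) (hρk : ρk ∈ A) (hxk : x = ρk * xk) (hρm : ρm ∈ A) (hxm : x = ρm * xm)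
    (hprod : xp * xm * (xk - x) ^ 2 = (xk * x - a₄) ^ 2 - 4 * a₆ * (xk + x + a₂))
    (hsum : (xp + xm) * (xk - x) ^ 2 =
        2 * ((xk + x) * (xk * x + a₄) + 2 * a₂ * xk * x + 2 * a₆)) :
    ∃ ρp : K, ρp ∈ A ∧ x = ρp * xp ∧ A.valuation (ρp + ρm - 2 * (1 + ρk)) < 1 := by
  have hx0 : x ≠ 0 := lk_ne_zero_of_not_mem A hx
  have hρk0 : ρk ≠ 0 := by rintro rfl; rw [zero_mul] at hxk; exact hx0 hxk
  have hxk0 : xk ≠ 0 := by rintro rfl; rw [mul_zero] at hxk; exact hx0 hxk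
  have hρm0 : ρm ≠ 0 := by rintro rfl; rw [zero_mul] at hxm; exact hx0 hxm
  have hxm0 : xm ≠ 0 := by rintro rfl; rw [mul_zero] at hxm; exact hx0 hxm
  obtain ⟨t, htdef⟩ : ∃ t : K, t = x⁻¹ := ⟨_, rfl⟩
  have ht : A.valuation t < 1 := htdef ▸ lk_val_inv_lt A hx
  have htA : t ∈ A := (A.valuation_le_one_iff _).1 ht.le
  have hxt : x * t = 1 := by rw [htdef]; exact mul_inv_cancel₀ hx0
  clear htdef
  obtain ⟨tk, htk⟩ : ∃ tk : K, tk = ρk * t := ⟨_, rfl⟩
  have htkA : tk ∈ A := by rw [htk]; exact A.mul_mem _ _ hρk htA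
  have hxktk : xk * tk = 1 := by
    rw [htk]
    have : xk * (ρk * t) = (ρk * xk) * t := by ring
    rw [this, ← hxk, hxt]
  have hxtk : x * tk = ρk := by
    rw [htk]
    have : x * (ρk * t) = ρk * (x * t) := by ring
    rw [this, hxt, mul_one]
  have hxmt : xm * t * ρm = 1 := by
    have : xm * t * ρm = (ρm * xm) * t := by ring
    rw [this, ← hxm, hxt]
  obtain ⟨E₁, hE₁⟩ : ∃ E₁ : K,
      E₁ = tk * (-2 * a₄ + a₄ ^ 2 * t * tk - 4 * a₆ * (t + tk + a₂ * t * tk)) := ⟨_, rfl⟩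
  obtain ⟨E₂, hE₂⟩ : ∃ E₂ : K,
      E₂ = 2 * ((1 + ρk) * a₄ * tk + 2 * a₂ * ρk + 2 * a₆ * tk ^ 2) := ⟨_, rfl⟩
  have hE₁A : E₁ ∈ A := by rw [hE₁]; clear hE₁ hE₂ htk hxmt hxtk hxktk hxt hprod hsum hxk hxm; aesop
  have hE₂A : E₂ ∈ A := by rw [hE₂]; clear hE₁ hE₂ htk hxmt hxtk hxktk hxt hprod hsum hxk hxm; aesop
  have hη₁ : A.valuation (t * E₁) < 1 := lk_val_lt_of_eq_mul A ht hE₁A rfl
  have hN₁ : A.valuation (1 + t * E₁) = 1 := A.valuation.map_one_add_of_lt hη₁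
  have hN₁0 : 1 + t * E₁ ≠ 0 := by
    intro h; rw [h, map_zero] at hN₁; exact zero_ne_one hN₁
  -- (A1) and (A2)
  have A1 : xp * xm * ((1 - ρk) ^ 2 * t) * t = 1 + t * E₁ := by
    have h1 : xp * xm * ((1 - ρk) ^ 2 * t) * t = (xp * xm * (xk - x) ^ 2) * (t * tk) ^ 2 := by
      have e : (xk - x) * (t * tk) = t * (1 - ρk) := by
        have : (xk - x) * (t * tk) = (xk * tk) * t - (x * t) * tk := by ring
        rw [this, hxktk, hxt, htk]; ring
      have : (xp * xm * (xk - x) ^ 2) * (t * tk) ^ 2 = xp * xm * ((xk - x) * (t * tk)) ^ 2 := by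
        ring
      rw [this, e]; ring
    rw [h1, hprod, hE₁]
    have e2 : ((xk * x - a₄) ^ 2 - 4 * a₆ * (xk + x + a₂)) * (t * tk) ^ 2 =
        ((xk * tk) * (x * t) - a₄ * t * tk) ^ 2 -
          4 * a₆ * ((xk * tk) * t ^ 2 * tk + (x * t) * t * tk ^ 2 + a₂ * t ^ 2 * tk ^ 2) := by ring
    rw [e2, hxktk, hxt]; ring
  have A2 : (xp + xm) * ((1 - ρk) ^ 2 * t) = 2 * (1 + ρk) + t * E₂ := by
    have h1 : (xp + xm) * ((1 - ρk) ^ 2 * t) = ((xp + xm) * (xk - x) ^ 2) * (tk ^ 2 * t) := by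
      have e : (xk - x) * tk = 1 - ρk := by
        have : (xk - x) * tk = xk * tk - x * tk := by ring
        rw [this, hxktk, hxtk]
      have : ((xp + xm) * (xk - x) ^ 2) * (tk ^ 2 * t) = (xp + xm) * (((xk - x) * tk) ^ 2 * t) := by
        ring
      rw [this, e]
    rw [h1, hsum, hE₂]
    have e2 : 2 * ((xk + x) * (xk * x + a₄) + 2 * a₂ * xk * x + 2 * a₆) * (tk ^ 2 * t) =
        2 * ((xk * tk + x * tk) * ((xk * tk) * (x * t) + a₄ * tk * t) +
          2 * a₂ * (xk * tk) * (x * t) * tk + 2 * a₆ * tk ^ 2 * t) := by ring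
    rw [e2, hxktk, hxt, hxtk, htk]; ring
  -- consequences
  have B1 : xp * ((1 - ρk) ^ 2 * t) = ρm * (1 + t * E₁) := by
    rw [← A1]
    have : ρm * (xp * xm * ((1 - ρk) ^ 2 * t) * t) =
        xp * ((1 - ρk) ^ 2 * t) * (xm * t * ρm) := by ring
    rw [this, hxmt, mul_one]
  have B2 : xm * ((1 - ρk) ^ 2 * t) = 2 * (1 + ρk) + t * E₂ - ρm * (1 + t * E₁) := by
    rw [← A2, ← B1]; ring
  have hsmall : A.valuation ((2 * (1 + ρk) + t * E₂) / (1 + t * E₁) - 2 * (1 + ρk)) < 1 := by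
    have e : (2 * (1 + ρk) + t * E₂) / (1 + t * E₁) - 2 * (1 + ρk) =
        (t * (E₂ - 2 * (1 + ρk) * E₁)) * (1 / (1 + t * E₁)) := by
      field_simp
      ring
    rw [e, map_mul, map_div₀, hN₁, map_one, div_one, mul_one]
    refine lk_val_lt_of_eq_mul A ht ?_ rfl
    clear hE₁ hE₂ htk hxmt hxtk hxktk hxt hprod hsum hxk hxm A1 A2 B1 B2
    aesop
  refine ⟨(2 * (1 + ρk) + t * E₂) / (1 + t * E₁) - ρm, ?_, ?_, ?_⟩
  · have h2 : (2 * (1 + ρk) + t * E₂) / (1 + t * E₁) ∈ A :=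
      lk_mem_of_val_sub_lt A (c := 2 * (1 + ρk)) (by clear hsmall; aesop) hsmall
    exact sub_mem h2 hρm
  · -- `x = ρp * xp`
    have h3 : ((2 * (1 + ρk) + t * E₂) / (1 + t * E₁) - ρm) * xp * (1 + t * E₁) =
        x * (1 + t * E₁) := by
      have e1 : ((2 * (1 + ρk) + t * E₂) / (1 + t * E₁) - ρm) * xp * (1 + t * E₁) =
          (2 * (1 + ρk) + t * E₂ - ρm * (1 + t * E₁)) * xp := by
        field_simp
      rw [e1, ← B2]
      have e2 : xm * ((1 - ρk) ^ 2 * t) * xp = xm * (xp * ((1 - ρk) ^ 2 * t)) := by ring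
      rw [e2, B1, hxm]; ring
    exact (mul_right_cancel₀ hN₁0 h3).symm
  · have e : (2 * (1 + ρk) + t * E₂) / (1 + t * E₁) - ρm + ρm - 2 * (1 + ρk) =
        (2 * (1 + ρk) + t * E₂) / (1 + t * E₁) - 2 * (1 + ρk) := by ring
    rw [e]; exact hsmall

end valaux

section induction

variable {K : Type*} [Field K] [DecidableEq K] (A : ValuationSubring K)
  (W : WeierstrassCurve.Affine K)

/-- `Q` is affine `(x', _)` with `x = ρ x'`, `ρ ∈ A`, `ρ ≡ c`. -/
def LKAff (x : K) (Q : W.Point) (c : K) : Prop :=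
  ∃ (x' y' : K) (h' : W.Nonsingular x' y') (ρ : K),
    Q = Point.some x' y' h' ∧ ρ ∈ A ∧ x = ρ * x' ∧ A.valuation (ρ - c) < 1

/-- the induction claim of Lemma K. -/
def LKProp (x : K) (P : W.Point) (k : ℕ) : Prop :=
  (k • P = 0 ∧ A.valuation (k : K) < 1) ∨ LKAff A W x (k • P) ((k : K) ^ 2)

variable {A W}

lemma lk_two_ne_zero (h2 : A.valuation (2 : K) = 1) : (2 : K) ≠ 0 := by
  intro h
  rw [h, map_zero] at h2
  exact zero_ne_one h2

lemma lk_natCast_mem (n : ℕ) : (n : K) ∈ A := natCast_mem A n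

lemma lk_step (h1 : W.a₁ = 0) (h3 : W.a₃ = 0)
    (ha2 : W.a₂ ∈ A) (ha4 : W.a₄ ∈ A) (ha6 : W.a₆ ∈ A) (h2 : A.valuation (2 : K) = 1)
    {x y : K} (h : W.Nonsingular x y) (hx : x ∉ A) (n : ℕ)
    (hn : LKProp A W x (Point.some x y h) n) (hn1 : LKProp A W x (Point.some x y h) (n + 1)) :
    LKProp A W x (Point.some x y h) (n + 2) := by
  have heq := xonly_equation h1 h3 h.1
  have hy : y ≠ 0 := lk_y_sq_ne_zero A ha2 ha4 ha6 hx heq
  have h20 : (2 : K) ≠ 0 := lk_two_ne_zero h2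
  have hx0 : x ≠ 0 := lk_ne_zero_of_not_mem A hx
  have h2A : (2 : K) ∈ A := (A.valuation_le_one_iff _).1 h2.le
  have e2 : (n + 2) • Point.some x y h = (n + 1) • Point.some x y h + Point.some x y h :=
    succ_nsmul (Point.some x y h) (n + 1)
  have e0 : n • Point.some x y h = (n + 1) • Point.some x y h - Point.some x y h := by
    rw [succ_nsmul]; abel
  rcases hn1 with ⟨h0, hv⟩ | ⟨xk, yk, hk, ρk, hQ, hρk, hxk, hvk⟩
  · -- (i) `(n+1) P = O`
    right
    refine ⟨x, y, h, 1, ?_, A.one_mem, (one_mul x).symm, ?_⟩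
    · rw [e2, h0, zero_add]
    · have e : (1 : K) - ((n + 2 : ℕ) : K) ^ 2 = ((n + 1 : ℕ) : K) * (-((n : K) + 3)) := by
        push_cast; ring
      refine lk_val_lt_of_eq_mul A hv ?_ e
      exact neg_mem (add_mem (lk_natCast_mem n) (by exact_mod_cast lk_natCast_mem (A := A) 3))
  · by_cases hxx : xk = x
    · subst hxx
      have hρk1 : ρk = 1 := by
        have : ρk * xk = 1 * xk := by rw [one_mul]; exact hxk.symm
        exact mul_right_cancel₀ hx0 this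
      have hyk : yk ^ 2 = y ^ 2 := by rw [xonly_equation h1 h3 hk.1, heq]
      obtain ⟨x', y', h', hdbl, hform⟩ := xonly_double h1 h3 h20 h hy
      obtain ⟨ρ, hρA, hxρ, hρ4⟩ := lk_double_alg A ha2 ha4 ha6 h2 hx heq hform
      have hx'0 : x' ≠ 0 := by rintro rfl; rw [mul_zero] at hxρ; exact hx0 hxρ
      rcases sq_eq_sq_iff_eq_or_eq_neg.mp hyk with hyy | hyy
      · -- `(n+1) P = P`
        subst hyy
        have hn0 : n • Point.some xk yk h = 0 := by rw [e0, hQ, sub_self]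
        have hvn : A.valuation (n : K) < 1 := by
          rcases hn with ⟨_, hv⟩ | ⟨x'', y'', h'', ρ'', hq, _⟩
          · exact hv
          · rw [hn0] at hq
            exact absurd hq.symm (Point.some_ne_zero h'')
        right
        refine ⟨x', y', h', ρ, ?_, hρA, hxρ, ?_⟩
        · rw [e2, hQ, hdbl]
        · have e : ρ - ((n + 2 : ℕ) : K) ^ 2 = (ρ - 4) - (n : K) * ((n : K) + 4) := by
            push_cast; ring
          rw [e]
          refine A.valuation.map_sub_lt hρ4 (lk_val_lt_of_eq_mul A hvn ?_ rfl)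
          exact add_mem (lk_natCast_mem n) (by exact_mod_cast lk_natCast_mem (A := A) 4)
      · -- `(n+1) P = -P`
        subst hyy
        obtain ⟨hneg, hnegeq⟩ := xonly_neg_some h1 h3 h
        have hQ' : (n + 1) • Point.some xk y h = -Point.some xk y h := by
          rw [hQ, hnegeq]
        left
        refine ⟨by rw [e2, hQ', neg_add_cancel], ?_⟩
        -- `n P = -(2P)`
        obtain ⟨hneg', hnegeq'⟩ := xonly_neg_some h1 h3 h'
        have hnP : n • Point.some xk y h = Point.some x' (-y') hneg' := by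
          rw [e0, hQ', ← hnegeq', ← hdbl]; abel
        rcases hn with ⟨h0, _⟩ | ⟨x'', y'', h'', ρ'', hq, hρ'', hx'', hv''⟩
        · rw [hnP] at h0
          exact absurd h0 (Point.some_ne_zero hneg')
        · rw [hnP] at hq
          have hxeq : x' = x'' := by
            injection hq
          subst hxeq
          have hρeq : ρ'' = ρ := by
            have : ρ'' * x' = ρ * x' := by rw [← hx'', ← hxρ]
            exact mul_right_cancel₀ hx'0 this
          subst hρeq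
          -- `n² ≡ 4` and `(n+1)² ≡ 1`
          have s1 : A.valuation (((n : K) + 2) * ((n : K) - 2)) < 1 := by
            have e : ((n : K) + 2) * ((n : K) - 2) = (ρ'' - 4) - (ρ'' - (n : K) ^ 2) := by ring
            rw [e]
            exact A.valuation.map_sub_lt hρ4 hv''
          have s2 : A.valuation (((n : K) + 2) * (n : K)) < 1 := by
            have e : ((n : K) + 2) * (n : K) = -(1 - ((n + 1 : ℕ) : K) ^ 2) := by
              push_cast; ring
            rw [e, Valuation.map_neg, ← hρk1]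
            exact hvk
          have hle : A.valuation ((n : K) + 2) ≤ 1 :=
            (A.valuation_le_one_iff _).2 (add_mem (lk_natCast_mem n) h2A)
          have hcast : ((n + 2 : ℕ) : K) = (n : K) + 2 := by push_cast; ring
          rw [hcast]
          by_contra hnot
          have heq1 : A.valuation ((n : K) + 2) = 1 := le_antisymm hle (not_lt.1 hnot)
          rw [map_mul, heq1, one_mul] at s1 s2
          have : A.valuation (2 : K) < 1 := by
            have e : (2 : K) = (n : K) - ((n : K) - 2) := by ring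
            rw [e]
            exact A.valuation.map_sub_lt s2 s1
          rw [h2] at this
          exact lt_irrefl _ this
    · -- (iii) `x_k ≠ x`
      obtain ⟨xp, yp, xm, ym, hp, hm, hadd, hsub, -, -, hprod, hsum⟩ :=
        xonly_add_sub h1 h3 hk h hxx
      have hnP : n • Point.some x y h = Point.some xm ym hm := by rw [e0, hQ, hsub]
      rcases hn with ⟨h0, _⟩ | ⟨x'', y'', h'', ρm, hq, hρm, hxm, hvm⟩
      · rw [hnP] at h0
        exact absurd h0 (Point.some_ne_zero hm)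
      · rw [hnP] at hq
        have hxeq : xm = x'' := by
          injection hq
        subst hxeq
        obtain ⟨ρp, hρp, hxp, hvp⟩ :=
          lk_step_alg A ha2 ha4 ha6 hx hρk hxk hρm hxm hprod hsum
        right
        refine ⟨xp, yp, hp, ρp, ?_, hρp, hxp, ?_⟩
        · rw [e2, hQ, hadd]
        · have e : ρp - ((n + 2 : ℕ) : K) ^ 2 =
              (ρp + ρm - 2 * (1 + ρk)) - (ρm - (n : K) ^ 2) +
                (ρk - ((n + 1 : ℕ) : K) ^ 2) * 2 := by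
            push_cast; ring
          rw [e]
          refine A.valuation.map_add_lt (A.valuation.map_sub_lt hvp hvm) ?_
          exact lk_val_lt_of_eq_mul A hvk h2A rfl

lemma lk_all (h1 : W.a₁ = 0) (h3 : W.a₃ = 0)
    (ha2 : W.a₂ ∈ A) (ha4 : W.a₄ ∈ A) (ha6 : W.a₆ ∈ A) (h2 : A.valuation (2 : K) = 1)
    {x y : K} (h : W.Nonsingular x y) (hx : x ∉ A) (n : ℕ) :
    LKProp A W x (Point.some x y h) n ∧ LKProp A W x (Point.some x y h) (n + 1) := by
  induction n with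
  | zero =>
    refine ⟨Or.inl ⟨zero_nsmul _, by simp⟩, Or.inr ⟨x, y, h, 1, ?_, A.one_mem, (one_mul x).symm, ?_⟩⟩
    · simp
    · simp
  | succ n ih =>
    exact ⟨ih.2, lk_step h1 h3 ha2 ha4 ha6 h2 h hx n ih.1 ih.2⟩

end induction

/-- (M3, Lemma K) On `Y² = X³ + a₂X² + a₄X + a₆` with integral coefficients and `2` a unit:
a point whose `x`-coordinate is not integral is not killed by any integer `m` that is a unit
of `A`. -/
theorem lemmaK {K : Type*} [Field K] [DecidableEq K] (A : ValuationSubring K)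
    (W : WeierstrassCurve.Affine K) (h1 : W.a₁ = 0) (h3 : W.a₃ = 0)
    (ha2 : W.a₂ ∈ A) (ha4 : W.a₄ ∈ A) (ha6 : W.a₆ ∈ A) (h2 : A.valuation (2 : K) = 1)
    {x y : K} (h : W.Nonsingular x y) (hx : x ∉ A) (m : ℕ) (hm : A.valuation (m : K) = 1) :
    m • (Point.some x y h) ≠ 0 := by
  intro h0
  rcases (lk_all h1 h3 ha2 ha4 ha6 h2 h hx m).1 with ⟨_, hv⟩ | ⟨x', y', h', ρ, hq, _⟩
  · rw [hm] at hv
    exact lt_irrefl _ hv
  · rw [h0] at hq
    exact absurd hq.symm (Point.some_ne_zero h')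

end Fermat.Agent.S05
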