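import Mathlib

/-!
# S05 / M4: additive valuations on nonzero elements  (OWNER: helper6)

`IsNzVal w` : `w : K → Γ` (`Γ` a linearly ordered abelian group) behaves like an additive
valuation on the nonzero elements of the field `K` (the value at `0` is junk).

`nzvalOf v` : the `IsNzVal` attached to a (multiplicative) valuation `v : Valuation K Γ₀`, with
values in `Additive Γ₀ˣ` (`w x = - log v x`).
-/

set_option autoImplicit false
set_option linter.unusedSectionVars false
set_option linter.unusedVariables false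

namespace Fermat.Agent.S05

variable {K : Type*} [Field K] {Γ : Type*} [AddCommGroup Γ] [LinearOrder Γ] [IsOrderedAddMonoid Γ]

/-- An additive valuation on the nonzero elements of `K`. -/
structure IsNzVal (w : K → Γ) : Prop where
  map_mul : ∀ {x y : K}, x ≠ 0 → y ≠ 0 → w (x * y) = w x + w y
  map_add : ∀ {x y : K}, x ≠ 0 → y ≠ 0 → x + y ≠ 0 → min (w x) (w y) ≤ w (x + y)

namespace IsNzVal

variable {w : K → Γ} (hw : IsNzVal w)
include hw

theorem map_one : w 1 = 0 := by
  have h := hw.map_mul (one_ne_zero (α := K)) (one_ne_zero (α := K))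
  rw [mul_one] at h
  grind

theorem map_neg_one : w (-1) = 0 := by
  have h1 : (-1 : K) ≠ 0 := neg_ne_zero.mpr one_ne_zero
  have h := hw.map_mul h1 h1
  rw [neg_one_mul, neg_neg, hw.map_one] at h
  grind

theorem map_neg (x : K) : w (-x) = w x := by
  rcases eq_or_ne x 0 with rfl | hx
  · simp
  · have h1 : (-1 : K) ≠ 0 := neg_ne_zero.mpr one_ne_zero
    have h := hw.map_mul h1 hx
    rw [neg_one_mul, hw.map_neg_one, zero_add] at h
    exact h

theorem map_sub_ge {x y : K} (hx : x ≠ 0) (hy : y ≠ 0) (hxy : x - y ≠ 0) :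
    min (w x) (w y) ≤ w (x - y) := by
  have h := hw.map_add hx (neg_ne_zero.mpr hy) (by rwa [← sub_eq_add_neg])
  rwa [hw.map_neg, ← sub_eq_add_neg] at h

theorem map_sub_comm (x y : K) : w (x - y) = w (y - x) := by
  rw [← hw.map_neg (x - y), neg_sub]

theorem add_ne_zero_of_ne {x y : K} (h : w x ≠ w y) : x + y ≠ 0 := by
  intro h0
  have : y = -x := by linear_combination h0
  rw [this, hw.map_neg] at h
  exact h rfl

theorem sub_ne_zero_of_ne {x y : K} (h : w x ≠ w y) : x - y ≠ 0 := by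
  intro h0
  have : x = y := by linear_combination h0
  rw [this] at h
  exact h rfl

theorem map_add_eq_of_lt {x y : K} (hx : x ≠ 0) (hy : y ≠ 0) (h : w x < w y) :
    w (x + y) = w x := by
  have hne : x + y ≠ 0 := hw.add_ne_zero_of_ne h.ne
  have h1 := hw.map_add hx hy hne
  have h2 := hw.map_sub_ge hne hy (by simpa using hx)
  rw [add_sub_cancel_right] at h2
  grind

theorem map_add_eq_of_ne {x y : K} (hx : x ≠ 0) (hy : y ≠ 0) (h : w x ≠ w y) :
    w (x + y) = min (w x) (w y) := by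
  rcases lt_or_gt_of_ne h with h' | h'
  · rw [hw.map_add_eq_of_lt hx hy h', min_eq_left h'.le]
  · rw [add_comm, hw.map_add_eq_of_lt hy hx h', min_eq_right h'.le]

theorem map_sub_eq_of_ne {x y : K} (hx : x ≠ 0) (hy : y ≠ 0) (h : w x ≠ w y) :
    w (x - y) = min (w x) (w y) := by
  have := hw.map_add_eq_of_ne hx (neg_ne_zero.mpr hy) (by rwa [hw.map_neg])
  rwa [hw.map_neg, ← sub_eq_add_neg] at this

theorem map_pow {x : K} (hx : x ≠ 0) (k : ℕ) : w (x ^ k) = k • w x := by
  induction k with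
  | zero => simp [hw.map_one]
  | succ k ih => rw [pow_succ, hw.map_mul (pow_ne_zero k hx) hx, ih, succ_nsmul]

theorem map_sq {x : K} (hx : x ≠ 0) : w (x ^ 2) = w x + w x := by
  rw [hw.map_pow hx, two_nsmul]

theorem map_two_mul {x : K} (h2 : (2 : K) ≠ 0) (hw2 : w 2 = 0) (hx : x ≠ 0) :
    w (2 * x) = w x := by
  rw [hw.map_mul h2 hx, hw2, zero_add]

end IsNzVal

/-! ### From a valuation -/

section ofValuation

variable {Γ₀ : Type*} [LinearOrderedCommGroupWithZero Γ₀] (v : Valuation K Γ₀)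

/-- `w x = - log (v x)` in `Additive Γ₀ˣ` (junk value `0` at `x = 0`). -/
noncomputable def nzvalOf (x : K) : Additive Γ₀ˣ :=
  open Classical in
  if hx : x = 0 then 0 else Additive.ofMul (Units.mk0 (v x) ((Valuation.ne_zero_iff v).2 hx))⁻¹

theorem nzvalOf_of_ne {x : K} (hx : x ≠ 0) :
    nzvalOf v x = Additive.ofMul (Units.mk0 (v x) ((Valuation.ne_zero_iff v).2 hx))⁻¹ := by
  unfold nzvalOf
  rw [dif_neg hx]

theorem nzvalOf_le_iff {x y : K} (hx : x ≠ 0) (hy : y ≠ 0) :
    nzvalOf v x ≤ nzvalOf v y ↔ v y ≤ v x := by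
  rw [nzvalOf_of_ne v hx, nzvalOf_of_ne v hy, Additive.ofMul_le, inv_le_inv_iff]
  rw [← Units.val_le_val]
  simp

theorem nzvalOf_lt_iff {x y : K} (hx : x ≠ 0) (hy : y ≠ 0) :
    nzvalOf v x < nzvalOf v y ↔ v y < v x := by
  rw [lt_iff_not_ge, lt_iff_not_ge, nzvalOf_le_iff v hy hx]

theorem nzvalOf_eq_iff {x y : K} (hx : x ≠ 0) (hy : y ≠ 0) :
    nzvalOf v x = nzvalOf v y ↔ v x = v y := by
  rw [le_antisymm_iff, le_antisymm_iff, nzvalOf_le_iff v hx hy, nzvalOf_le_iff v hy hx]
  tauto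

theorem nzvalOf_one : nzvalOf v (1 : K) = 0 := by
  rw [nzvalOf_of_ne v one_ne_zero]
  have : Units.mk0 (v (1 : K)) ((Valuation.ne_zero_iff v).2 one_ne_zero) = 1 := by
    ext; simp
  rw [this]; simp

theorem isNzVal_nzvalOf : IsNzVal (nzvalOf v) where
  map_mul := by
    intro x y hx hy
    rw [nzvalOf_of_ne v hx, nzvalOf_of_ne v hy, nzvalOf_of_ne v (mul_ne_zero hx hy),
      ← ofMul_mul, ← mul_inv]
    congr 2
    ext; simp
  map_add := by
    intro x y hx hy hxy
    rcases le_total (v x) (v y) with h | h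
    · have h1 : v (x + y) ≤ v y := (v.map_add x y).trans (max_le h le_rfl)
      exact (min_le_right _ _).trans ((nzvalOf_le_iff v hy hxy).2 h1)
    · have h1 : v (x + y) ≤ v x := (v.map_add x y).trans (max_le le_rfl h)
      exact (min_le_left _ _).trans ((nzvalOf_le_iff v hx hxy).2 h1)

theorem nzvalOf_pos_iff {x : K} (hx : x ≠ 0) : 0 < nzvalOf v x ↔ v x < 1 := by
  rw [← nzvalOf_one v, nzvalOf_lt_iff v one_ne_zero hx, map_one]

theorem nzvalOf_eq_zero_iff {x : K} (hx : x ≠ 0) : nzvalOf v x = 0 ↔ v x = 1 := by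
  rw [← nzvalOf_one v, nzvalOf_eq_iff v hx one_ne_zero, map_one]

theorem nzvalOf_eq_nsmul_iff {x ε : K} (hx : x ≠ 0) (hε : ε ≠ 0) (k : ℕ) :
    nzvalOf v x = k • nzvalOf v ε ↔ v x = v ε ^ k := by
  rw [← (isNzVal_nzvalOf v).map_pow hε k, nzvalOf_eq_iff v hx (pow_ne_zero k hε), map_pow]

end ofValuation

end Fermat.Agent.S05
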