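import Mathlib

/-!
# S05 / M4: tropical lemmas  (OWNER: helper6)

Pure linear arithmetic in a linearly ordered abelian group `Γ` (the value group of an additive
valuation).  `cval n v` is the "distance to the identity component" attached to the valuation
`v = v(X(P))` of the `X`-coordinate of a point on `Y² = X(X-e)(X-f)`, `n = v(e) > 0`.

* `trop_pair`   : the pair rule, from the valuations of `x₁, x₂, x₁-e, x₂-e, x₁-f, x₂-f, x₁-x₂,
  x₁x₂-ef, y₁, y₂, x₊, x₋, x₊-x₋`.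
* `trop_double` : the duplication rule.
-/

set_option autoImplicit false
set_option linter.unusedVariables false
set_option linter.unusedSectionVars false

namespace Fermat.Agent.S05

variable {Γ : Type*} [AddCommGroup Γ] [LinearOrder Γ] [IsOrderedAddMonoid Γ]

/-- The "component distance" attached to a valuation value. -/
def cval (n v : Γ) : Γ := if v ≤ 0 then 0 else min v n

/-- The expected value of `c(P₁ + P₂)` (up to swapping with `c(P₁ - P₂)`). -/
def calpha (n c₁ c₂ : Γ) : Γ := if c₁ + c₂ ≤ n then c₁ + c₂ else n + n - (c₁ + c₂)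

theorem cval_nonneg {n : Γ} (hn : 0 < n) (v : Γ) : 0 ≤ cval n v := by
  unfold cval; grind

theorem cval_le {n : Γ} (hn : 0 < n) (v : Γ) : cval n v ≤ n := by
  unfold cval; grind

theorem cval_pos_iff {n : Γ} (hn : 0 < n) (v : Γ) : 0 < cval n v ↔ 0 < v := by
  unfold cval; grind

theorem cval_of_pos {n v : Γ} (hv : 0 < v) : cval n v = min v n := by
  unfold cval; grind

theorem trop_pair
    (n v₁ v₂ a₁ a₂ b₁ b₂ δ μ η₁ η₂ vp vm Dv : Γ)
    (hn : 0 < n) (hv₂ : 0 < v₂)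
    (ha₁ : min v₁ n ≤ a₁) (ha₁' : v₁ ≠ n → a₁ = min v₁ n)
    (ha₂ : min v₂ n ≤ a₂) (ha₂' : v₂ ≠ n → a₂ = min v₂ n)
    (hb₁ : min v₁ 0 ≤ b₁) (hb₁' : v₁ ≠ 0 → b₁ = min v₁ 0)
    (hb₂ : b₂ = 0)
    (hδ : min v₁ v₂ ≤ δ) (hδ' : v₁ ≠ v₂ → δ = min v₁ v₂)
    (hμ : min (v₁ + v₂) n ≤ μ) (hμ' : v₁ + v₂ ≠ n → μ = min (v₁ + v₂) n)
    (hη₁ : η₁ + η₁ = v₁ + a₁ + b₁) (hη₂ : η₂ + η₂ = v₂ + a₂ + b₂)
    (hS : vp + vm + (δ + δ) = μ + μ)
    (hD : Dv + (δ + δ) = η₁ + η₂)
    (hDge : min vp vm ≤ Dv) (hDeq : vp ≠ vm → Dv = min vp vm) :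
    (cval n vp = calpha n (cval n v₁) (cval n v₂) ∧ cval n vm = |cval n v₁ - cval n v₂|) ∨
    (cval n vm = calpha n (cval n v₁) (cval n v₂) ∧ cval n vp = |cval n v₁ - cval n v₂|) := by
  unfold calpha cval
  grind (splits := 40)

theorem trop_double
    (n v a μ η v' : Γ)
    (hn : 0 < n) (hv : 0 < v)
    (ha : min v n ≤ a) (ha' : v ≠ n → a = min v n)
    (hμ : min (v + v) n ≤ μ) (hμ' : v + v ≠ n → μ = min (v + v) n)
    (hη : η + η = v + a)
    (hv' : v' + (η + η) = μ + μ) :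
    cval n v' = calpha n (cval n v) (cval n v) := by
  unfold calpha cval
  grind (splits := 40)

end Fermat.Agent.S05
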