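import Fermat.Agent.S05.XOnly
import Fermat.Agent.S05.Trop
import Fermat.Agent.S05.NzVal

/-!
# S05 / M4 (core): the pair rule on `Y² = X (X - e) (X - f)`  (OWNER: helper6)

`WefData W e f w` : `W` is the curve `Y² = X (X - e) (X - f)` over `K`, and `w` is an additive
valuation on `K` with `w e > 0`, `w f = 0`, `w 2 = 0`.

`cpt w n P` : the "component distance" of the point `P` (`n = w e`).

`pair_rule` : for points `Q₁, Q₂` such that none of `Q₁, Q₂, Q₁ + Q₂, Q₁ - Q₂` has exact order 2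
and `0 < cpt Q₂`, the pair `{cpt (Q₁ + Q₂), cpt (Q₁ - Q₂)}` is
`{calpha n c₁ c₂, |c₁ - c₂|}`.
-/

set_option autoImplicit false
set_option linter.unusedSectionVars false
set_option linter.unusedVariables false

namespace Fermat.Agent.S05

open WeierstrassCurve WeierstrassCurve.Affine

variable {K : Type*} [Field K] [DecidableEq K]
  {Γ : Type*} [AddCommGroup Γ] [LinearOrder Γ] [IsOrderedAddMonoid Γ]

/-- The curve `Y² = X (X - e) (X - f)` with a valuation `w`, `w e > 0`, `w f = 0 = w 2`. -/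
structure WefData (W : Affine K) (e f : K) (w : K → Γ) : Prop where
  a1 : W.a₁ = 0
  a3 : W.a₃ = 0
  a2 : W.a₂ = -(e + f)
  a4 : W.a₄ = e * f
  a6 : W.a₆ = 0
  val : IsNzVal w
  e_ne : e ≠ 0
  f_ne : f ≠ 0
  two_ne : (2 : K) ≠ 0
  we_pos : 0 < w e
  wf : w f = 0
  w2 : w 2 = 0

/-- The component distance of a point. -/
def cpt {W : Affine K} (w : K → Γ) (n : Γ) : W.Point → Γ
  | .zero => 0
  | .some x _ _ => cval n (w x)

/-- `Q` is not a point of exact order 2. -/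
def NoTwo {W : Affine K} (Q : W.Point) : Prop := Q + Q = 0 → Q = 0

variable {W : Affine K} {e f : K} {w : K → Γ}

@[simp] theorem cpt_zero (n : Γ) : cpt w n (0 : W.Point) = 0 := rfl

@[simp] theorem cpt_some (n : Γ) {x y : K} (h : W.Nonsingular x y) :
    cpt w n (Point.some x y h) = cval n (w x) := rfl

theorem cpt_neg (n : Γ) (Q : W.Point) : cpt w n (-Q) = cpt w n Q := by
  rcases Q with _ | ⟨x, y, h⟩
  · rfl
  · rw [Point.neg_some]; rfl

theorem NoTwo.neg {Q : W.Point} (hQ : NoTwo Q) : NoTwo (-Q) := by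
  intro h
  have : Q + Q = 0 := by
    have h' : -(Q + Q) = 0 := by rw [neg_add]; exact h
    exact neg_eq_zero.mp h'
  rw [hQ this]; simp

theorem noTwo_zero : NoTwo (0 : W.Point) := fun _ => rfl

namespace WefData

variable (D : WefData W e f w)
include D

theorem equation {x y : K} (h : W.Equation x y) : y ^ 2 = x * (x - e) * (x - f) := by
  have := xonly_equation D.a1 D.a3 h
  rw [D.a2, D.a4, D.a6] at this
  linear_combination this

theorem y_ne_zero {x y : K} {h : W.Nonsingular x y} (hQ : NoTwo (Point.some x y h)) : y ≠ 0 := by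
  intro hy
  exact Point.some_ne_zero h (hQ (xonly_double_of_y_eq_zero D.a1 D.a3 h hy))

theorem x_ne_zero {x y : K} (h : W.Equation x y) (hy : y ≠ 0) : x ≠ 0 := by
  rintro rfl
  have := D.equation h
  simp at this
  exact hy this

theorem x_sub_e_ne_zero {x y : K} (h : W.Equation x y) (hy : y ≠ 0) : x - e ≠ 0 := by
  intro h0
  have := D.equation h
  rw [h0] at this
  simp at this
  exact hy this

theorem x_sub_f_ne_zero {x y : K} (h : W.Equation x y) (hy : y ≠ 0) : x - f ≠ 0 := by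
  intro h0
  have := D.equation h
  rw [h0] at this
  simp at this
  exact hy this

theorem w_y {x y : K} (h : W.Equation x y) (hy : y ≠ 0) :
    w y + w y = w x + w (x - e) + w (x - f) := by
  have hx := D.x_ne_zero h hy
  have hxe := D.x_sub_e_ne_zero h hy
  have hxf := D.x_sub_f_ne_zero h hy
  rw [← D.val.map_sq hy, D.equation h, D.val.map_mul (mul_ne_zero hx hxe) hxf,
    D.val.map_mul hx hxe]

theorem w_four : w (4 : K) = 0 := by
  have : (4 : K) = 2 * 2 := by norm_num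
  rw [this, D.val.map_mul D.two_ne D.two_ne, D.w2, add_zero]

theorem four_ne : (4 : K) ≠ 0 := by
  have : (4 : K) = 2 * 2 := by norm_num
  rw [this]
  exact mul_ne_zero D.two_ne D.two_ne

theorem w_ef : w (e * f) = w e := by
  rw [D.val.map_mul D.e_ne D.f_ne, D.wf, add_zero]

/-- The duplication rule. -/
theorem cpt_double {x y : K} {h : W.Nonsingular x y} (hQ : NoTwo (Point.some x y h))
    (hQ2 : NoTwo (Point.some x y h + Point.some x y h)) (hx : 0 < w x) :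
    cpt w (w e) (Point.some x y h + Point.some x y h) =
      calpha (w e) (cval (w e) (w x)) (cval (w e) (w x)) := by
  have hy := D.y_ne_zero hQ
  have hx0 := D.x_ne_zero h.1 hy
  have hxe := D.x_sub_e_ne_zero h.1 hy
  have hxf := D.x_sub_f_ne_zero h.1 hy
  obtain ⟨x', y', h', hdbl, hx'⟩ := xonly_double D.a1 D.a3 D.two_ne h hy
  rw [hdbl] at hQ2 ⊢
  have hy' := D.y_ne_zero hQ2
  have hx'0 := D.x_ne_zero h'.1 hy'
  rw [D.a2, D.a4, D.a6] at hx'
  have hx'' : x' * (4 * y ^ 2) = (x ^ 2 - e * f) ^ 2 := by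
    rw [hx']; ring
  have hM : x ^ 2 - e * f ≠ 0 := by
    intro h0
    rw [h0] at hx''
    have : x' * (4 * y ^ 2) ≠ 0 := mul_ne_zero hx'0 (mul_ne_zero D.four_ne (pow_ne_zero 2 hy))
    exact this (by rw [hx'']; simp)
  have hx2 : x ^ 2 ≠ 0 := pow_ne_zero 2 hx0
  have hef : e * f ≠ 0 := mul_ne_zero D.e_ne D.f_ne
  have hwf : w (x - f) = 0 := by
    rw [D.val.map_sub_eq_of_ne hx0 D.f_ne (by rw [D.wf]; exact hx.ne'), D.wf]
    exact min_eq_right hx.le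
  rw [cpt_some]
  refine trop_double (w e) (w x) (w (x - e)) (w (x ^ 2 - e * f)) (w y) (w x') D.we_pos hx
    (D.val.map_sub_ge hx0 D.e_ne hxe) (fun hne => D.val.map_sub_eq_of_ne hx0 D.e_ne hne)
    ?_ ?_ ?_ ?_
  · have := D.val.map_sub_ge hx2 hef hM
    rwa [D.val.map_sq hx0, D.w_ef] at this
  · intro hne
    have := D.val.map_sub_eq_of_ne hx2 hef (by rwa [D.val.map_sq hx0, D.w_ef])
    rwa [D.val.map_sq hx0, D.w_ef] at this
  · rw [D.w_y h.1 hy, hwf, add_zero]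
  · have h1 := congrArg w hx''
    rw [D.val.map_mul hx'0 (mul_ne_zero D.four_ne (pow_ne_zero 2 hy)),
      D.val.map_mul D.four_ne (pow_ne_zero 2 hy), D.w_four, zero_add, D.val.map_sq hy,
      D.val.map_sq hM] at h1
    exact h1

/-- The pair rule, main case `x₁ ≠ x₂`. -/
theorem pair_rule_of_ne {x₁ y₁ x₂ y₂ : K} {h₁ : W.Nonsingular x₁ y₁} {h₂ : W.Nonsingular x₂ y₂}
    (g₁ : NoTwo (Point.some x₁ y₁ h₁)) (g₂ : NoTwo (Point.some x₂ y₂ h₂))
    (gp : NoTwo (Point.some x₁ y₁ h₁ + Point.some x₂ y₂ h₂))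
    (gm : NoTwo (Point.some x₁ y₁ h₁ - Point.some x₂ y₂ h₂))
    (hx₂ : 0 < w x₂) (hx : x₁ ≠ x₂) :
    (cpt w (w e) (Point.some x₁ y₁ h₁ + Point.some x₂ y₂ h₂)
        = calpha (w e) (cval (w e) (w x₁)) (cval (w e) (w x₂)) ∧
      cpt w (w e) (Point.some x₁ y₁ h₁ - Point.some x₂ y₂ h₂)
        = |cval (w e) (w x₁) - cval (w e) (w x₂)|) ∨
    (cpt w (w e) (Point.some x₁ y₁ h₁ - Point.some x₂ y₂ h₂)
        = calpha (w e) (cval (w e) (w x₁)) (cval (w e) (w x₂)) ∧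
      cpt w (w e) (Point.some x₁ y₁ h₁ + Point.some x₂ y₂ h₂)
        = |cval (w e) (w x₁) - cval (w e) (w x₂)|) := by
  have hy₁ := D.y_ne_zero g₁
  have hy₂ := D.y_ne_zero g₂
  have hx₁0 := D.x_ne_zero h₁.1 hy₁
  have hx₂0 := D.x_ne_zero h₂.1 hy₂
  have hx₁e := D.x_sub_e_ne_zero h₁.1 hy₁
  have hx₂e := D.x_sub_e_ne_zero h₂.1 hy₂
  have hx₁f := D.x_sub_f_ne_zero h₁.1 hy₁
  have hx₂f := D.x_sub_f_ne_zero h₂.1 hy₂
  obtain ⟨xp, yp, xm, ym, hp, hm, hadd, hsub, hxp, hxm, hprod, hsum⟩ :=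
    xonly_add_sub D.a1 D.a3 h₁ h₂ hx
  rw [hadd] at gp ⊢
  rw [hsub] at gm ⊢
  have hyp := D.y_ne_zero gp
  have hym := D.y_ne_zero gm
  have hxp0 := D.x_ne_zero hp.1 hyp
  have hxm0 := D.x_ne_zero hm.1 hym
  have hd : x₁ - x₂ ≠ 0 := sub_ne_zero.mpr hx
  have hd2 : (x₁ - x₂) ^ 2 ≠ 0 := pow_ne_zero 2 hd
  rw [D.a4, D.a6] at hprod
  have hprod' : xp * xm * (x₁ - x₂) ^ 2 = (x₁ * x₂ - e * f) ^ 2 := by
    rw [hprod]; ring
  have hM : x₁ * x₂ - e * f ≠ 0 := by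
    intro h0
    rw [h0] at hprod'
    have : xp * xm * (x₁ - x₂) ^ 2 ≠ 0 := mul_ne_zero (mul_ne_zero hxp0 hxm0) hd2
    exact this (by rw [hprod']; simp)
  have hDf : (xp - xm) * (x₁ - x₂) ^ 2 = -1 * (4 * (y₁ * y₂)) := by
    linear_combination hxp - hxm
  have hD0 : xp - xm ≠ 0 := by
    intro h0
    rw [h0] at hDf
    have : (-1 : K) * (4 * (y₁ * y₂)) ≠ 0 :=
      mul_ne_zero (neg_ne_zero.mpr one_ne_zero) (mul_ne_zero D.four_ne (mul_ne_zero hy₁ hy₂))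
    exact this (by rw [← hDf]; simp)
  have hx12 : x₁ * x₂ ≠ 0 := mul_ne_zero hx₁0 hx₂0
  have hef : e * f ≠ 0 := mul_ne_zero D.e_ne D.f_ne
  have hwf₂ : w (x₂ - f) = 0 := by
    rw [D.val.map_sub_eq_of_ne hx₂0 D.f_ne (by rw [D.wf]; exact hx₂.ne'), D.wf]
    exact min_eq_right hx₂.le
  rw [cpt_some, cpt_some]
  refine trop_pair (w e) (w x₁) (w x₂) (w (x₁ - e)) (w (x₂ - e)) (w (x₁ - f)) (w (x₂ - f))
    (w (x₁ - x₂)) (w (x₁ * x₂ - e * f)) (w y₁) (w y₂) (w xp) (w xm) (w (xp - xm))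
    D.we_pos hx₂
    (D.val.map_sub_ge hx₁0 D.e_ne hx₁e) (fun hne => D.val.map_sub_eq_of_ne hx₁0 D.e_ne hne)
    (D.val.map_sub_ge hx₂0 D.e_ne hx₂e) (fun hne => D.val.map_sub_eq_of_ne hx₂0 D.e_ne hne)
    ?_ ?_ hwf₂
    (D.val.map_sub_ge hx₁0 hx₂0 hd) (fun hne => D.val.map_sub_eq_of_ne hx₁0 hx₂0 hne)
    ?_ ?_ (D.w_y h₁.1 hy₁) (D.w_y h₂.1 hy₂) ?_ ?_
    (D.val.map_sub_ge hxp0 hxm0 hD0) (fun hne => D.val.map_sub_eq_of_ne hxp0 hxm0 hne)
  · have := D.val.map_sub_ge hx₁0 D.f_ne hx₁f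
    rwa [D.wf] at this
  · intro hne
    have := D.val.map_sub_eq_of_ne hx₁0 D.f_ne (by rwa [D.wf])
    rwa [D.wf] at this
  · have := D.val.map_sub_ge hx12 hef hM
    rwa [D.val.map_mul hx₁0 hx₂0, D.w_ef] at this
  · intro hne
    have := D.val.map_sub_eq_of_ne hx12 hef (by rwa [D.val.map_mul hx₁0 hx₂0, D.w_ef])
    rwa [D.val.map_mul hx₁0 hx₂0, D.w_ef] at this
  · have h1 := congrArg w hprod'
    rw [D.val.map_mul (mul_ne_zero hxp0 hxm0) hd2, D.val.map_mul hxp0 hxm0, D.val.map_sq hd,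
      D.val.map_sq hM] at h1
    exact h1
  · have h1 := congrArg w hDf
    rw [D.val.map_mul hD0 hd2, D.val.map_sq hd,
      D.val.map_mul (neg_ne_zero.mpr one_ne_zero) (mul_ne_zero D.four_ne (mul_ne_zero hy₁ hy₂)),
      D.val.map_neg_one, zero_add, D.val.map_mul D.four_ne (mul_ne_zero hy₁ hy₂), D.w_four,
      zero_add, D.val.map_mul hy₁ hy₂] at h1
    exact h1

/-- **The pair rule.** -/
theorem pair_rule {Q₁ Q₂ : W.Point} (g₁ : NoTwo Q₁) (g₂ : NoTwo Q₂)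
    (gp : NoTwo (Q₁ + Q₂)) (gm : NoTwo (Q₁ - Q₂)) (hQ₂ : 0 < cpt w (w e) Q₂) :
    (cpt w (w e) (Q₁ + Q₂) = calpha (w e) (cpt w (w e) Q₁) (cpt w (w e) Q₂) ∧
      cpt w (w e) (Q₁ - Q₂) = |cpt w (w e) Q₁ - cpt w (w e) Q₂|) ∨
    (cpt w (w e) (Q₁ - Q₂) = calpha (w e) (cpt w (w e) Q₁) (cpt w (w e) Q₂) ∧
      cpt w (w e) (Q₁ + Q₂) = |cpt w (w e) Q₁ - cpt w (w e) Q₂|) := by
  have hn := D.we_pos
  rcases Q₂ with _ | ⟨x₂, y₂, h₂⟩
  · exact absurd hQ₂ (lt_irrefl _)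
  have hx₂ : 0 < w x₂ := (cval_pos_iff hn _).1 hQ₂
  have hc₂le : cval (w e) (w x₂) ≤ w e := cval_le hn _
  have hc₂pos : 0 < cval (w e) (w x₂) := hQ₂
  rcases Q₁ with _ | ⟨x₁, y₁, h₁⟩
  · -- `Q₁ = 0`
    left
    have e1 : (Point.zero : W.Point) = 0 := rfl
    rw [e1, zero_add, zero_sub, cpt_neg, cpt_zero, cpt_some]
    refine ⟨?_, ?_⟩
    · unfold calpha; grind
    · grind
  by_cases hx : x₁ = x₂
  · -- `Q₁ = ± Q₂`
    rcases (Point.X_eq_iff (h₁ := h₁) (h₂ := h₂)).1 hx with heq | heq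
    · left
      rw [heq] at gp ⊢
      rw [sub_self, cpt_zero]
      refine ⟨D.cpt_double g₂ gp hx₂, ?_⟩
      simp
    · right
      rw [heq] at gm ⊢
      have e2 : -Point.some x₂ y₂ h₂ - Point.some x₂ y₂ h₂
          = -(Point.some x₂ y₂ h₂ + Point.some x₂ y₂ h₂) := by abel
      rw [e2] at gm ⊢
      have gm' : NoTwo (Point.some x₂ y₂ h₂ + Point.some x₂ y₂ h₂) := by
        have := gm.neg
        rwa [neg_neg] at this
      rw [cpt_neg, cpt_neg, neg_add_cancel, cpt_zero]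
      refine ⟨D.cpt_double g₂ gm' hx₂, ?_⟩
      simp
  · exact D.pair_rule_of_ne g₁ g₂ gp gm hx₂ hx

end WefData

end Fermat.Agent.S05
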