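import Fermat.Agent.S05.Defs
import Fermat.Prelude.Def_FLTPrelim_Ramification

/-!
# S05 — valuation facts: integers in a valuation subring over `q`, inertia

OWNER: helper9.
-/

set_option autoImplicit false

namespace Fermat.Agent.S05

variable {K : Type*} [Field K] (A : ValuationSubring K)

lemma val_intCast_le_one (m : ℤ) : A.valuation (m : K) ≤ 1 :=
  (A.valuation_le_one_iff _).2 (intCast_mem A m)

lemma val_natCast_le_one (m : ℕ) : A.valuation (m : K) ≤ 1 :=
  (A.valuation_le_one_iff _).2 (natCast_mem A m)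

/-- an integer divisible by `q` has positive valuation. -/
lemma val_intCast_lt_one_of_dvd {q : ℕ} (hA : A.LiesOverPrime q) {m : ℤ} (h : (q : ℤ) ∣ m) :
    A.valuation (m : K) < 1 := by
  obtain ⟨k, rfl⟩ := h
  have h1 : A.valuation ((q : ℕ) : K) < 1 := A.mem_nonunits_iff.1 hA
  push_cast
  rw [map_mul]
  calc A.valuation (q : K) * A.valuation (k : K) ≤ A.valuation (q : K) * 1 :=
        mul_le_mul' le_rfl (val_intCast_le_one A k)
    _ < 1 := by rw [mul_one]; exact h1

/-- an integer prime to `q` is a unit. -/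
lemma val_intCast_eq_one_of_not_dvd {q : ℕ} (hq : q.Prime) (hA : A.LiesOverPrime q) {m : ℤ}
    (h : ¬ (q : ℤ) ∣ m) : A.valuation (m : K) = 1 := by
  refine le_antisymm (val_intCast_le_one A m) (not_lt.1 fun hlt => ?_)
  have hcop : IsCoprime (q : ℤ) m := by
    rw [Int.isCoprime_iff_gcd_eq_one]
    have hp : Prime (q : ℤ) := Nat.prime_iff_prime_int.mp hq
    exact Int.isCoprime_iff_gcd_eq_one.1 ((Prime.coprime_iff_not_dvd hp).2 h)
  obtain ⟨u, w, huw⟩ := hcop
  have h1 : A.valuation ((q : ℕ) : K) < 1 := A.mem_nonunits_iff.1 hA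
  have h2 : A.valuation ((u : K) * (q : K) + (w : K) * (m : K)) < 1 := by
    refine lt_of_le_of_lt (A.valuation.map_add _ _) (max_lt ?_ ?_)
    · rw [map_mul]
      calc A.valuation (u : K) * A.valuation (q : K) ≤ 1 * A.valuation (q : K) :=
            mul_le_mul' (val_intCast_le_one A u) le_rfl
        _ < 1 := by rw [one_mul]; exact h1
    · rw [map_mul]
      calc A.valuation (w : K) * A.valuation (m : K) ≤ 1 * A.valuation (m : K) :=
            mul_le_mul' (val_intCast_le_one A w) le_rfl
        _ < 1 := by rw [one_mul]; exact hlt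
  have h3 : ((u : K) * (q : K) + (w : K) * (m : K)) = 1 := by
    have := congrArg (Int.cast : ℤ → K) huw
    push_cast at this
    exact this
  rw [h3, map_one] at h2
  exact lt_irrefl _ h2

lemma val_natCast_eq_one_of_not_dvd {q : ℕ} (hq : q.Prime) (hA : A.LiesOverPrime q) {m : ℕ}
    (h : ¬ q ∣ m) : A.valuation (m : K) = 1 := by
  have := val_intCast_eq_one_of_not_dvd A hq hA (m := (m : ℤ)) (by exact_mod_cast h)
  simpa using this

end Fermat.Agent.S05
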